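import Fermat.Agent.S55.A.Defs

/-!
# S55, analytic block (A-5): every ideal class contains an integral ideal coprime to `𝔪`
-/

set_option autoImplicit false

namespace Fermat.Agent.S55.A

open NumberField IsDedekindDomain Fermat.Agent.S14.An
open scoped nonZeroDivisors

/-- general Dedekind domain version. -/
theorem coprime_exists_rep {R : Type*} [CommRing R] [IsDedekindDomain R] {𝔪 : Ideal R}
    (h𝔪 : 𝔪 ≠ ⊥) (C : ClassGroup R) :
    ∃ J : (Ideal R)⁰, ClassGroup.mk0 J = C ∧ IsCoprime (J : Ideal R) 𝔪 := by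
  obtain ⟨I, hI⟩ := ClassGroup.mk0_surjective C⁻¹
  have hI0 : (I : Ideal R) ≠ 0 := nonZeroDivisors.coe_ne_zero I
  obtain ⟨α, hα⟩ := IsDedekindDomain.exists_sup_span_eq (I := (I : Ideal R) * 𝔪) (J := I)
    Ideal.mul_le_left (mul_ne_zero hI0 h𝔪)
  have hαI : Ideal.span {α} ≤ (I : Ideal R) := by
    conv_rhs => rw [← hα]
    exact le_sup_right
  obtain ⟨J, hJ⟩ := Ideal.dvd_iff_le.2 hαI
  have h1 : (I : Ideal R) * (𝔪 ⊔ J) = I * ⊤ := by rw [Ideal.mul_sup, ← hJ, hα, Ideal.mul_top]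
  have h2 : 𝔪 ⊔ J = ⊤ := mul_left_cancel₀ hI0 h1
  by_cases hJ0 : J = 0
  · -- then `𝔪 = ⊤`
    obtain ⟨J', hJ'⟩ := ClassGroup.mk0_surjective C
    refine ⟨J', hJ', ?_⟩
    rw [hJ0, Ideal.zero_eq_bot, sup_bot_eq] at h2
    rw [Ideal.isCoprime_iff_sup_eq, h2, sup_top_eq]
  · refine ⟨⟨J, mem_nonZeroDivisors_of_ne_zero hJ0⟩, ?_, ?_⟩
    · have h3 : ClassGroup.mk0 (I * ⟨J, mem_nonZeroDivisors_of_ne_zero hJ0⟩) = 1 := by
        rw [ClassGroup.mk0_eq_one_iff]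
        exact ⟨α, by rw [Submonoid.coe_mul, ← hJ]⟩
      rw [map_mul, hI] at h3
      exact (inv_mul_eq_one.1 h3).symm
    · rw [Ideal.isCoprime_iff_sup_eq, sup_comm]
      exact h2

variable {k : Type*} [Field k] [NumberField k] (𝔪 : Ideal (𝓞 k))

variable {𝔪} in
theorem exists_coprime_rep (h𝔪 : 𝔪 ≠ ⊥) (C : ClassGroup (𝓞 k)) :
    ∃ J : (Ideal (𝓞 k))⁰, ClassGroup.mk0 J = C ∧ IsCoprime (J : Ideal (𝓞 k)) 𝔪 :=
  coprime_exists_rep h𝔪 C

end Fermat.Agent.S55.A
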