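import Fermat.Agent.S14.An.D2Defs

/-!
# S55, analytic block (A): definitions

`φ` is a homomorphism from the nonzero ideals of `𝓞 k` to a finite abelian group `A`, `𝔪` a modulus.
We only look at ideals coprime to `𝔪`.
-/

set_option autoImplicit false

namespace Fermat.Agent.S55.A

open NumberField IsDedekindDomain Fermat.Agent.S14.An
open scoped nonZeroDivisors

variable {k : Type*} [Field k] [NumberField k] (𝔪 : Ideal (𝓞 k))
  {A : Type*} [CommGroup A] (φ : (Ideal (𝓞 k))⁰ →* A)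

/-- the principal ideal generated by a nonzero element, as an element of `(Ideal (𝓞 k))⁰`. -/
def spanNZ (β : 𝓞 k) (hβ : β ≠ 0) : (Ideal (𝓞 k))⁰ :=
  ⟨Ideal.span {β}, mem_nonZeroDivisors_of_ne_zero (by simpa using hβ)⟩

@[simp] lemma coe_spanNZ (β : 𝓞 k) (hβ : β ≠ 0) :
    ((spanNZ β hβ : (Ideal (𝓞 k))⁰) : Ideal (𝓞 k)) = Ideal.span {β} := rfl

open Classical in
/-- indicator of `{I coprime to 𝔪, φ I = a}`. -/
noncomputable def ind (a : A) (I : (Ideal (𝓞 k))⁰) : ℝ :=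
  if IsCoprime (I : Ideal (𝓞 k)) 𝔪 ∧ φ I = a then 1 else 0

/-- partial zeta function of the ideal class `C`, restricted to `{I coprime to 𝔪, φ I = a}`. -/
noncomputable def pZ (C : ClassGroup (𝓞 k)) (a : A) (s : ℝ) : ℝ :=
  ∑' I : {I : (Ideal (𝓞 k))⁰ // ClassGroup.mk0 I = C},
    ind 𝔪 φ a (I : (Ideal (𝓞 k))⁰) * nrm k s ((I : (Ideal (𝓞 k))⁰) : Ideal (𝓞 k))

open Classical in
/-- number of residue classes `x mod 𝔪` all of whose nonzero lifts `β` generate an ideal coprime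
to `𝔪` with `φ (β) = a`. -/
noncomputable def nu (a : A) : ℕ :=
  Nat.card {x : 𝓞 k ⧸ 𝔪 // IsUnit x ∧
    ∀ (β : 𝓞 k) (hβ : β ≠ 0), Ideal.Quotient.mk 𝔪 β = x → φ (spanNZ β hβ) = a}

open Classical in
/-- the coefficients of the `L`-series of the character `ψ ∘ φ` of modulus `𝔪`. -/
noncomputable def coef (ψ : AddChar (Additive A) ℂ) (I : (Ideal (𝓞 k))⁰) : ℂ :=
  if IsCoprime (I : Ideal (𝓞 k)) 𝔪 then ψ (Additive.ofMul (φ I)) else 0

/-- the `L`-series. -/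
noncomputable def LS (ψ : AddChar (Additive A) ℂ) (s : ℝ) : ℂ :=
  ∑' I : (Ideal (𝓞 k))⁰, coef 𝔪 φ ψ I * ((nrm k s (I : Ideal (𝓞 k)) : ℝ) : ℂ)

/-- the hypothesis: `φ` is trivial on the ray mod `𝔪`. -/
def RayTrivial : Prop :=
  ∀ (α : 𝓞 k) (hα : α ≠ 0), α - 1 ∈ 𝔪 → φ (spanNZ α hα) = 1

/-- the primes coprime to `𝔪` in the kernel of `φ`. -/
def kerPrimes : Set (HeightOneSpectrum (𝓞 k)) :=
  {v | ¬ 𝔪 ≤ v.asIdeal ∧ φ (primeNZ v) = 1}

end Fermat.Agent.S55.A
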