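import Fermat.Agent.S55.A.Defs
import Fermat.Agent.S14.An.Final

/-!
# S55, analytic block (A-10): primes of `k` with a prime of relative degree one in `L`
have density `≥ 1/[L:k]`
-/

set_option autoImplicit false
set_option linter.deprecated false

namespace Fermat.Agent.S55.A

open NumberField IsDedekindDomain Fermat.Agent.S14.An
open scoped nonZeroDivisors

variable {k : Type*} [Field k] [NumberField k]

section DegOne

variable {L : Type*} [Field L] [NumberField L] [Algebra k L]

variable (k) in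
/-- the prime of `k` below `w`. -/
noncomputable def degOneUnder (w : HeightOneSpectrum (𝓞 L)) : HeightOneSpectrum (𝓞 k) :=
  w.under (𝓞 k)

omit [NumberField k] [NumberField L] in
theorem degOne_liesOver (w : HeightOneSpectrum (𝓞 L)) :
    w.asIdeal.LiesOver (degOneUnder k w).asIdeal := ⟨rfl⟩

theorem degOne_absNorm_eq (w : HeightOneSpectrum (𝓞 L)) (hw : (Ideal.absNorm w.asIdeal).Prime) :
    Ideal.absNorm w.asIdeal = Ideal.absNorm (degOneUnder k w).asIdeal := by
  have := degOne_liesOver (k := k) w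
  have h := Ideal.absNorm_eq_pow_inertiaDeg'_of_liesOver w.asIdeal (degOneUnder k w).asIdeal
    (degOneUnder k w).isPrime (degOneUnder k w).ne_bot
  rw [h] at hw
  have hf := Nat.Prime.eq_one_of_pow hw
  rw [h, hf, pow_one]

open Classical in
theorem degOne_fiber_card_le {S : Set (HeightOneSpectrum (𝓞 L))} (u : Finset S)
    (b : HeightOneSpectrum (𝓞 k)) :
    (u.filter (fun w : S => degOneUnder k (w : HeightOneSpectrum (𝓞 L)) = b)).card ≤
      Module.finrank k L := by
  have : b.asIdeal.IsMaximal := b.isMaximal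
  have : NoZeroSMulDivisors (𝓞 k) (𝓞 L) := ⟨fun h => smul_eq_zero.mp h⟩
  refine le_trans ?_ (Ideal.card_primesOverFinset_le_finrank (𝓞 L) k L b.ne_bot)
  refine Finset.card_le_card_of_injOn (fun w : S => (w : HeightOneSpectrum (𝓞 L)).asIdeal) ?_ ?_
  · intro w hw
    have hw' : degOneUnder k (w : HeightOneSpectrum (𝓞 L)) = b := by
      simpa using (Finset.mem_filter.mp (Finset.mem_coe.mp hw)).2
    rw [Finset.mem_coe, IsDedekindDomain.mem_primesOverFinset_iff b.ne_bot]
    refine ⟨(w : HeightOneSpectrum (𝓞 L)).isPrime, ?_⟩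
    rw [← hw']
    exact degOne_liesOver _
  · intro v _ w _ h
    exact Subtype.ext (HeightOneSpectrum.ext h)

variable (k L) in
/-- the set of primes of `k` with a prime of relative degree one above them. -/
def degOneSet : Set (HeightOneSpectrum (𝓞 k)) :=
  {v : HeightOneSpectrum (𝓞 k) | ∃ w : HeightOneSpectrum (𝓞 L),
    w.asIdeal.LiesOver v.asIdeal ∧ Ideal.absNorm w.asIdeal = Ideal.absNorm v.asIdeal}

/-- the sum over the primes of `L` of prime norm is at most `[L:k]` times the sum over the primes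
of `k` with a prime of relative degree one above them. -/
theorem degOne_primeSum_le {s : ℝ} (hs : 1 < s) :
    primeSum {w : HeightOneSpectrum (𝓞 L) | (Ideal.absNorm w.asIdeal).Prime} s ≤
      (Module.finrank k L : ℝ) * primeSum (degOneSet k L) s := by
  classical
  have hsumk : Summable fun v : HeightOneSpectrum (𝓞 k) => nrm k s v.asIdeal :=
    fin_summable_nrm_prime (summable_nrm hs)
  have hsumV : Summable fun v : degOneSet k L => nrm k s (v : HeightOneSpectrum (𝓞 k)).asIdeal :=
    hsumk.subtype _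
  unfold primeSum
  refine Real.tsum_le_of_sum_le (fun v => fin_nrm_nonneg s _) (fun u => ?_)
  have hmem : ∀ w : {w : HeightOneSpectrum (𝓞 L) | (Ideal.absNorm w.asIdeal).Prime},
      degOneUnder k (w : HeightOneSpectrum (𝓞 L)) ∈ degOneSet k L := fun w =>
    ⟨w, degOne_liesOver _, degOne_absNorm_eq _ w.2⟩
  let g : {w : HeightOneSpectrum (𝓞 L) | (Ideal.absNorm w.asIdeal).Prime} → degOneSet k L :=
    fun w => ⟨degOneUnder k (w : HeightOneSpectrum (𝓞 L)), hmem w⟩
  have h1 : ∀ w ∈ u, nrm L s (w : HeightOneSpectrum (𝓞 L)).asIdeal =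
      nrm k s ((g w : degOneSet k L) : HeightOneSpectrum (𝓞 k)).asIdeal := by
    intro w _
    unfold nrm
    rw [degOne_absNorm_eq (k := k) _ w.2]
  rw [Finset.sum_congr rfl h1,
    Finset.sum_comp (fun v : degOneSet k L => nrm k s (v : HeightOneSpectrum (𝓞 k)).asIdeal) g]
  have h6 : ∀ b ∈ u.image g, (u.filter (fun w => g w = b)).card •
      nrm k s (b : HeightOneSpectrum (𝓞 k)).asIdeal ≤
      (Module.finrank k L : ℝ) * nrm k s (b : HeightOneSpectrum (𝓞 k)).asIdeal := by
    intro b _
    rw [nsmul_eq_mul]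
    refine mul_le_mul_of_nonneg_right ?_ (fin_nrm_nonneg s _)
    have h7 := degOne_fiber_card_le (k := k) u (b : HeightOneSpectrum (𝓞 k))
    have h8 : u.filter (fun w => g w = b) =
        u.filter (fun w : {w : HeightOneSpectrum (𝓞 L) | (Ideal.absNorm w.asIdeal).Prime} =>
          degOneUnder k (w : HeightOneSpectrum (𝓞 L)) = b) := by
      refine Finset.filter_congr fun w _ => ?_
      exact Subtype.ext_iff
    rw [h8]
    exact_mod_cast h7
  refine (Finset.sum_le_sum h6).trans ?_
  rw [← Finset.mul_sum]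
  refine mul_le_mul_of_nonneg_left ?_ (Nat.cast_nonneg _)
  exact hsumV.sum_le_tsum _ (fun _ _ => fin_nrm_nonneg s _)

variable (L) in
/-- the primes of prime norm carry the pole. -/
theorem degOne_log_le : ∃ C : ℝ, ∀ s : ℝ, 1 < s → s ≤ 2 →
    Real.log (1 / (s - 1)) - C ≤
      primeSum {w : HeightOneSpectrum (𝓞 L) | (Ideal.absNorm w.asIdeal).Prime} s := by
  obtain ⟨c, C0, hc, -, hb⟩ := idealZeta_bounds L
  obtain ⟨C1, hC1⟩ := log_idealZeta_le L
  obtain ⟨C2, hC2⟩ := primeSum_not_prime_norm_le L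
  refine ⟨C1 + C2 - Real.log c, fun s hs hs2 => ?_⟩
  have hs1 : 0 < s - 1 := by linarith
  have h1 : Real.log (c / (s - 1)) ≤ Real.log (idealZeta L s) :=
    Real.log_le_log (by positivity) (hb s hs hs2).1
  have h2 : Real.log (c / (s - 1)) = Real.log c + Real.log (1 / (s - 1)) := by
    rw [div_eq_mul_one_div, Real.log_mul hc.ne' (by positivity)]
  have h3 := hC1 s hs hs2
  have h4 := hC2 s hs
  have h5 := fin_primeSum_univ_le_of_cover (K := L) (summable_nrm hs)
    {w : HeightOneSpectrum (𝓞 L) | (Ideal.absNorm w.asIdeal).Prime}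
    {w : HeightOneSpectrum (𝓞 L) | ¬ (Ideal.absNorm w.asIdeal).Prime} ∅
    (fun v => by
      by_cases h : (Ideal.absNorm v.asIdeal).Prime
      · exact Or.inl h
      · exact Or.inr (Or.inl h))
  have h6 : primeSum (∅ : Set (HeightOneSpectrum (𝓞 L))) s = 0 := by
    unfold primeSum
    exact tsum_empty
  linarith

end DegOne

theorem primeSum_degOne_ge (L : Type*) [Field L] [NumberField L] [Algebra k L] :
    ∃ C : ℝ, ∀ s : ℝ, 1 < s → s ≤ 2 →
      (1 / (Module.finrank k L : ℝ)) * Real.log (1 / (s - 1)) - C ≤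
        primeSum {v : HeightOneSpectrum (𝓞 k) | ∃ w : HeightOneSpectrum (𝓞 L),
          w.asIdeal.LiesOver v.asIdeal ∧
            Ideal.absNorm w.asIdeal = Ideal.absNorm v.asIdeal} s := by
  obtain ⟨C, hC⟩ := degOne_log_le L
  have hd : (0 : ℝ) < (Module.finrank k L : ℝ) := by
    exact_mod_cast Module.finrank_pos (R := k) (M := L)
  refine ⟨C / (Module.finrank k L : ℝ), fun s hs hs2 => ?_⟩
  have h1 := hC s hs hs2
  have h2 := degOne_primeSum_le (k := k) (L := L) hs
  have h3 : Real.log (1 / (s - 1)) - C ≤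
      (Module.finrank k L : ℝ) * primeSum (degOneSet k L) s := h1.trans h2
  have h4 : (1 / (Module.finrank k L : ℝ)) * Real.log (1 / (s - 1)) - C / (Module.finrank k L : ℝ)
      = (Real.log (1 / (s - 1)) - C) / (Module.finrank k L : ℝ) := by
    ring
  rw [h4, div_le_iff₀ hd, mul_comm]
  exact h3

end Fermat.Agent.S55.A
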