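import Fermat.Agent.S55.A.Defs
import Fermat.Agent.S14.An.EP2Core
import Fermat.Agent.S14.An.Zeta
import Fermat.Agent.S14.An.EulerProduct

/-!
# S55, analytic block (A-8): Euler product lower bound for the `L`-series `LS`
-/

set_option autoImplicit false
set_option linter.unusedSectionVars false

namespace Fermat.Agent.S55.A

open NumberField IsDedekindDomain Fermat.Agent.S14.An Filter Topology
open scoped nonZeroDivisors

variable {k : Type*} [Field k] [NumberField k] (𝔪 : Ideal (𝓞 k))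
  {A : Type*} [CommGroup A] (φ : (Ideal (𝓞 k))⁰ →* A)

lemma euler_coef_one (ψ : AddChar (Additive A) ℂ) : coef 𝔪 φ ψ 1 = 1 := by
  unfold coef
  rw [if_pos (by simpa using (isCoprime_one_left : IsCoprime (1 : Ideal (𝓞 k)) 𝔪))]
  rw [map_one]
  exact AddChar.map_zero_eq_one ψ

lemma euler_coef_mul (ψ : AddChar (Additive A) ℂ) (I J : (Ideal (𝓞 k))⁰) :
    coef 𝔪 φ ψ (I * J) = coef 𝔪 φ ψ I * coef 𝔪 φ ψ J := by
  unfold coef
  have h : IsCoprime (((I * J : (Ideal (𝓞 k))⁰)) : Ideal (𝓞 k)) 𝔪 ↔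
      IsCoprime (I : Ideal (𝓞 k)) 𝔪 ∧ IsCoprime (J : Ideal (𝓞 k)) 𝔪 := by
    rw [Submonoid.coe_mul]
    exact IsCoprime.mul_left_iff
  by_cases hI : IsCoprime (I : Ideal (𝓞 k)) 𝔪
  · by_cases hJ : IsCoprime (J : Ideal (𝓞 k)) 𝔪
    · rw [if_pos (h.2 ⟨hI, hJ⟩), if_pos hI, if_pos hJ, map_mul, ofMul_mul,
        AddChar.map_add_eq_mul]
    · rw [if_neg (fun hc => hJ (h.1 hc).2), if_neg hJ, mul_zero]
  · rw [if_neg (fun hc => hI (h.1 hc).1), if_neg hI, zero_mul]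

lemma euler_norm_coef_le [Finite A] (ψ : AddChar (Additive A) ℂ) (I : (Ideal (𝓞 k))⁰) :
    ‖coef 𝔪 φ ψ I‖ ≤ 1 := by
  unfold coef
  split_ifs
  · exact (AddChar.norm_apply ψ _).le
  · simp

/-- The monoid hom `I ↦ coef ψ I * N(I)^(-s)`. -/
noncomputable def coefHom (ψ : AddChar (Additive A) ℂ) (s : ℝ) : (Ideal (𝓞 k))⁰ →* ℂ where
  toFun I := coef 𝔪 φ ψ I * ((nrm k s (I : Ideal (𝓞 k)) : ℝ) : ℂ)
  map_one' := by
    have h : nrm k s (((1 : (Ideal (𝓞 k))⁰) : Ideal (𝓞 k))) = 1 := EP2.nrm_one s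
    rw [h, euler_coef_one]; simp
  map_mul' I J := by
    rw [euler_coef_mul, Submonoid.coe_mul, EP2.nrm_mul, Complex.ofReal_mul]
    ring

lemma coefHom_apply (ψ : AddChar (Additive A) ℂ) (s : ℝ) (I : (Ideal (𝓞 k))⁰) :
    coefHom 𝔪 φ ψ s I = coef 𝔪 φ ψ I * ((nrm k s (I : Ideal (𝓞 k)) : ℝ) : ℂ) := rfl

lemma LS_eq_tsum_coefHom (ψ : AddChar (Additive A) ℂ) (s : ℝ) :
    LS 𝔪 φ ψ s = ∑' I, coefHom 𝔪 φ ψ s I := rfl

lemma norm_coefHom_le [Finite A] (ψ : AddChar (Additive A) ℂ) (s : ℝ) (I : (Ideal (𝓞 k))⁰) :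
    ‖coefHom 𝔪 φ ψ s I‖ ≤ nrm k s (I : Ideal (𝓞 k)) := by
  rw [coefHom_apply, norm_mul, Complex.norm_real, Real.norm_eq_abs,
    abs_of_nonneg (EP2.nrm_nonneg _ _)]
  have h1 := euler_norm_coef_le 𝔪 φ ψ I
  have h2 := EP2.nrm_nonneg (K := k) s (I : Ideal (𝓞 k))
  nlinarith

lemma re_coefHom (ψ : AddChar (Additive A) ℂ) (s : ℝ) (I : (Ideal (𝓞 k))⁰) :
    (coefHom 𝔪 φ ψ s I).re = (coef 𝔪 φ ψ I).re * nrm k s (I : Ideal (𝓞 k)) := by
  rw [coefHom_apply, Complex.re_mul_ofReal]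

lemma summable_norm_coefHom [Finite A] (ψ : AddChar (Additive A) ℂ) {s : ℝ} (hs : 1 < s) :
    Summable fun I => ‖coefHom 𝔪 φ ψ s I‖ :=
  Summable.of_nonneg_of_le (fun _ => norm_nonneg _) (fun I => norm_coefHom_le 𝔪 φ ψ s I)
    (summable_nrm hs)

theorem exp_le_norm_LS [Finite A] : ∃ C : ℝ, ∀ (ψ : AddChar (Additive A) ℂ) (s : ℝ), 1 < s → s ≤ 2 →
    Real.exp ((∑' v : HeightOneSpectrum (𝓞 k),
      (coef 𝔪 φ ψ (primeNZ v)).re * nrm k s v.asIdeal) - C) ≤ ‖LS 𝔪 φ ψ s‖ := by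
  have hZ : EP2.SummableNrm k := fun s hs => summable_nrm hs
  refine ⟨∑' v : HeightOneSpectrum (𝓞 k), nrm k 2 v.asIdeal, fun ψ s hs _ => ?_⟩
  set C := ∑' v : HeightOneSpectrum (𝓞 k), nrm k 2 v.asIdeal with hC
  have hsum2 := EP2.summable_nrm_prime hZ (K := k) (s := 2) (by norm_num)
  have hsums := EP2.summable_nrm_prime hZ (K := k) hs
  have hf := summable_norm_coefHom 𝔪 φ ψ hs
  have hT := (eulerProduct_tendsto (coefHom 𝔪 φ ψ s) hf).norm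
  rw [← LS_eq_tsum_coefHom] at hT
  have hre : Summable fun v : HeightOneSpectrum (𝓞 k) =>
      (coef 𝔪 φ ψ (primeNZ v)).re * nrm k s v.asIdeal := by
    refine Summable.of_norm_bounded hsums (fun v => ?_)
    rw [norm_mul, Real.norm_eq_abs, Real.norm_eq_abs, abs_of_nonneg (EP2.nrm_nonneg _ _)]
    have h1 : |(coef 𝔪 φ ψ (primeNZ v)).re| ≤ 1 :=
      (Complex.abs_re_le_norm _).trans (euler_norm_coef_le 𝔪 φ ψ _)
    nlinarith [EP2.nrm_nonneg (K := k) s v.asIdeal]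
  have hS : Tendsto (fun T : Finset (HeightOneSpectrum (𝓞 k)) =>
      Real.exp ((∑ v ∈ T, (coef 𝔪 φ ψ (primeNZ v)).re * nrm k s v.asIdeal) - C))
      atTop (𝓝 (Real.exp ((∑' v : HeightOneSpectrum (𝓞 k),
      (coef 𝔪 φ ψ (primeNZ v)).re * nrm k s v.asIdeal) - C))) :=
    (Real.continuous_exp.tendsto _).comp (hre.hasSum.sub_const C)
  refine le_of_tendsto_of_tendsto' hS hT (fun T => ?_)
  rw [norm_prod]
  have h1 : ∑ v ∈ T, nrm k s v.asIdeal ^ 2 ≤ C :=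
    (Finset.sum_le_sum fun v _ => EP2.nrm_prime_sq_le hs v).trans
      (hsum2.sum_le_tsum T fun v _ => EP2.nrm_nonneg _ _)
  calc Real.exp ((∑ v ∈ T, (coef 𝔪 φ ψ (primeNZ v)).re * nrm k s v.asIdeal) - C)
      ≤ Real.exp (∑ v ∈ T, ((coef 𝔪 φ ψ (primeNZ v)).re * nrm k s v.asIdeal
          - nrm k s v.asIdeal ^ 2)) := by
        apply Real.exp_le_exp.mpr
        rw [Finset.sum_sub_distrib]
        linarith
    _ = ∏ v ∈ T, Real.exp ((coef 𝔪 φ ψ (primeNZ v)).re * nrm k s v.asIdeal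
          - nrm k s v.asIdeal ^ 2) := Real.exp_sum _ _
    _ ≤ ∏ v ∈ T, ‖(1 - coefHom 𝔪 φ ψ s (primeNZ v))⁻¹‖ := by
        refine Finset.prod_le_prod (fun v _ => (Real.exp_pos _).le) (fun v _ => ?_)
        have hn : ‖coefHom 𝔪 φ ψ s (primeNZ v)‖ ≤ nrm k s v.asIdeal :=
          norm_coefHom_le 𝔪 φ ψ s (primeNZ v)
        have hlt : ‖coefHom 𝔪 φ ψ s (primeNZ v)‖ < 1 := by
          linarith [EP2.nrm_prime_le_half hs v]
        have h2 := EP2.exp_le_norm_one_sub_inv hlt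
        rw [re_coefHom] at h2
        refine le_trans (Real.exp_le_exp.mpr ?_) h2
        have h3 : ‖coefHom 𝔪 φ ψ s (primeNZ v)‖ ^ 2 ≤ nrm k s v.asIdeal ^ 2 :=
          pow_le_pow_left₀ (norm_nonneg _) hn 2
        have h4 : nrm k s ((primeNZ v : (Ideal (𝓞 k))⁰) : Ideal (𝓞 k)) = nrm k s v.asIdeal := rfl
        rw [h4]
        linarith

theorem norm_LS_le [Finite A] (ψ : AddChar (Additive A) ℂ) {s : ℝ} (hs : 1 < s) :
    ‖LS 𝔪 φ ψ s‖ ≤ idealZeta k s := by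
  rw [LS_eq_tsum_coefHom]
  refine (norm_tsum_le_tsum_norm (summable_norm_coefHom 𝔪 φ ψ hs)).trans ?_
  exact Summable.tsum_le_tsum (fun I => norm_coefHom_le 𝔪 φ ψ s I)
    (summable_norm_coefHom 𝔪 φ ψ hs) (summable_nrm hs)

end Fermat.Agent.S55.A
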