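import Fermat.Agent.S55.A.Periodic
import Fermat.Agent.S55.A.Coprime

/-!
# S55, analytic block (A): a quotient of the ray class group is finite
-/

set_option autoImplicit false

namespace Fermat.Agent.S55.A

open NumberField IsDedekindDomain Fermat.Agent.S14.An
open scoped nonZeroDivisors

variable {k : Type*} [Field k] [NumberField k] {𝔪 : Ideal (𝓞 k)}
  {A : Type*} [CommGroup A] {φ : (Ideal (𝓞 k))⁰ →* A}

theorem finite_of_rayTrivial (h𝔪 : 𝔪 ≠ ⊥) (h1 : RayTrivial 𝔪 φ)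
    (hsurj : ∀ a : A, ∃ I : (Ideal (𝓞 k))⁰, IsCoprime (I : Ideal (𝓞 k)) 𝔪 ∧ φ I = a) :
    Finite A := by
  classical
  have : Finite (𝓞 k ⧸ 𝔪) := Ideal.finiteQuotientOfFreeOfNeBot 𝔪 h𝔪
  choose J hJ1 hJ2 using fun C : ClassGroup (𝓞 k) => exists_coprime_rep h𝔪 C
  let g : 𝓞 k ⧸ 𝔪 → A := fun x =>
    if h : ∃ (β : 𝓞 k) (hβ : β ≠ 0), IsCoprime (Ideal.span {β}) 𝔪 ∧ Ideal.Quotient.mk 𝔪 β = x
    then φ (spanNZ h.choose h.choose_spec.choose) else 1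
  have hg : ∀ (β : 𝓞 k) (hβ : β ≠ 0), IsCoprime (Ideal.span {β}) 𝔪 →
      φ (spanNZ β hβ) = g (Ideal.Quotient.mk 𝔪 β) := by
    intro β hβ hcop
    have h : ∃ (β' : 𝓞 k) (hβ' : β' ≠ 0), IsCoprime (Ideal.span {β'}) 𝔪 ∧
        Ideal.Quotient.mk 𝔪 β' = Ideal.Quotient.mk 𝔪 β := ⟨β, hβ, hcop, rfl⟩
    simp only [g, dif_pos h]
    refine phi_span_eq_of_sub_mem h1 β _ hβ _ hcop ?_
    rw [← Ideal.Quotient.eq]
    exact h.choose_spec.choose_spec.2.symm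
  refine Finite.of_surjective
    (fun p : ClassGroup (𝓞 k) × (𝓞 k ⧸ 𝔪) => g p.2 * (φ (J p.1))⁻¹) ?_
  intro a
  obtain ⟨I, hI, rfl⟩ := hsurj a
  have hp : ClassGroup.mk0 (I * J (ClassGroup.mk0 I)⁻¹) = 1 := by
    rw [map_mul, hJ1, mul_inv_cancel]
  rw [ClassGroup.mk0_eq_one_iff] at hp
  obtain ⟨β, hβ⟩ := hp
  have hβ' : ((I * J (ClassGroup.mk0 I)⁻¹ : (Ideal (𝓞 k))⁰) : Ideal (𝓞 k)) = Ideal.span {β} := hβ
  have hβ0 : β ≠ 0 := by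
    rintro rfl
    have h0 := nonZeroDivisors.ne_zero (I * J (ClassGroup.mk0 I)⁻¹).2
    rw [hβ'] at h0
    simp at h0
  have hcop : IsCoprime (Ideal.span {β}) 𝔪 := by
    rw [← hβ', Submonoid.coe_mul]
    exact IsCoprime.mul_left hI (hJ2 _)
  have heq : spanNZ β hβ0 = I * J (ClassGroup.mk0 I)⁻¹ := Subtype.ext hβ'.symm
  refine ⟨((ClassGroup.mk0 I)⁻¹, Ideal.Quotient.mk 𝔪 β), ?_⟩
  simp only
  rw [← hg β hβ0 hcop, heq, map_mul, mul_inv_cancel_right]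

end Fermat.Agent.S55.A
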