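import Fermat.Agent.S55.A.Defs

/-!
# S55, analytic block (A-2): periodicity modulo `𝔪`
-/

set_option autoImplicit false
set_option linter.unusedSectionVars false

namespace Fermat.Agent.S55.A

open NumberField IsDedekindDomain Fermat.Agent.S14.An
open scoped nonZeroDivisors

variable {k : Type*} [Field k] [NumberField k] (𝔪 : Ideal (𝓞 k))
  {A : Type*} [CommGroup A] (φ : (Ideal (𝓞 k))⁰ →* A)

theorem isCoprime_span_iff (β : 𝓞 k) :
    IsCoprime (Ideal.span {β}) 𝔪 ↔ IsUnit (Ideal.Quotient.mk 𝔪 β) := by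
  rw [Ideal.isCoprime_iff_exists]
  constructor
  · rintro ⟨i, hi, j, hj, hij⟩
    obtain ⟨γ, rfl⟩ := Ideal.mem_span_singleton'.1 hi
    refine IsUnit.of_mul_eq_one (Ideal.Quotient.mk 𝔪 γ) ?_
    rw [mul_comm, ← map_mul, ← map_one (Ideal.Quotient.mk 𝔪), Ideal.Quotient.eq]
    have : γ * β - 1 = -j := by rw [← hij]; ring
    rw [this]
    exact 𝔪.neg_mem hj
  · intro h
    obtain ⟨y, hy⟩ := h.exists_right_inv
    obtain ⟨γ, rfl⟩ := Ideal.Quotient.mk_surjective y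
    rw [← map_mul, ← map_one (Ideal.Quotient.mk 𝔪), Ideal.Quotient.eq] at hy
    refine ⟨β * γ, Ideal.mul_mem_right _ _ (Ideal.mem_span_singleton_self β), -(β * γ - 1),
      𝔪.neg_mem hy, by ring⟩

theorem Periodic.spanNZ_mul (γ β : 𝓞 k) (hγ : γ ≠ 0) (hβ : β ≠ 0) :
    spanNZ (γ * β) (mul_ne_zero hγ hβ) = spanNZ γ hγ * spanNZ β hβ := by
  apply Subtype.ext
  simp [Ideal.span_singleton_mul_span_singleton]

variable {𝔪 φ} in
theorem phi_span_eq_of_sub_mem (h1 : RayTrivial 𝔪 φ) (β β' : 𝓞 k) (hβ : β ≠ 0) (hβ' : β' ≠ 0)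
    (hcop : IsCoprime (Ideal.span {β}) 𝔪) (h : β - β' ∈ 𝔪) :
    φ (spanNZ β hβ) = φ (spanNZ β' hβ') := by
  by_cases htop : 𝔪 = ⊤
  · rw [h1 β hβ (by rw [htop]; trivial), h1 β' hβ' (by rw [htop]; trivial)]
  obtain ⟨y, hy⟩ := ((isCoprime_span_iff 𝔪 β).1 hcop).exists_left_inv
  obtain ⟨γ, rfl⟩ := Ideal.Quotient.mk_surjective y
  rw [← map_mul, ← map_one (Ideal.Quotient.mk 𝔪), Ideal.Quotient.eq] at hy
  have hγ : γ ≠ 0 := by
    rintro rfl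
    apply htop
    rw [Ideal.eq_top_iff_one]
    have : (1 : 𝓞 k) = -(0 * β - 1) := by ring
    rw [this]
    exact 𝔪.neg_mem hy
  have hy' : γ * β' - 1 ∈ 𝔪 := by
    have : γ * β' - 1 = (γ * β - 1) - γ * (β - β') := by ring
    rw [this]
    exact 𝔪.sub_mem hy (𝔪.mul_mem_left γ h)
  have e1 := h1 (γ * β) (mul_ne_zero hγ hβ) hy
  have e2 := h1 (γ * β') (mul_ne_zero hγ hβ') hy'
  rw [Periodic.spanNZ_mul γ β hγ hβ, map_mul] at e1
  rw [Periodic.spanNZ_mul γ β' hγ hβ', map_mul] at e2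
  exact mul_left_cancel (e1.trans e2.symm)

open Classical in
/-- indicator on residue classes. -/
noncomputable def resInd (a : A) (x : 𝓞 k ⧸ 𝔪) : ℝ :=
  if IsUnit x ∧ ∀ (β : 𝓞 k) (hβ : β ≠ 0), Ideal.Quotient.mk 𝔪 β = x → φ (spanNZ β hβ) = a
  then 1 else 0

variable {𝔪 φ} in
theorem ind_spanNZ (h1 : RayTrivial 𝔪 φ) (a : A) (β : 𝓞 k) (hβ : β ≠ 0) :
    ind 𝔪 φ a (spanNZ β hβ) = resInd 𝔪 φ a (Ideal.Quotient.mk 𝔪 β) := by
  unfold ind resInd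
  congr 1
  rw [coe_spanNZ, isCoprime_span_iff]
  apply propext
  constructor
  · rintro ⟨hu, ha⟩
    refine ⟨hu, fun β' hβ' hββ' => ?_⟩
    rw [← ha]
    refine (phi_span_eq_of_sub_mem h1 β β' hβ hβ' ((isCoprime_span_iff 𝔪 β).2 hu) ?_).symm
    exact Ideal.Quotient.eq.1 hββ'.symm
  · rintro ⟨hu, ha⟩
    exact ⟨hu, ha β hβ rfl⟩

theorem sum_resInd [Fintype (𝓞 k ⧸ 𝔪)] (a : A) :
    ∑ x : 𝓞 k ⧸ 𝔪, resInd 𝔪 φ a x = (nu 𝔪 φ a : ℝ) := by
  classical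
  unfold resInd nu
  rw [Nat.card_eq_fintype_card, Fintype.card_subtype, Finset.card_filter]
  push_cast
  exact Finset.sum_congr rfl fun x _ => by congr

end Fermat.Agent.S55.A
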