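import Fermat.Agent.S55.A.Defs

/-!
# S55, analytic block (A), package A-3: decomposition of `J` into residue classes mod `𝔪`
-/

set_option autoImplicit false
set_option linter.unusedSectionVars false

namespace Fermat.Agent.S55.A

open NumberField IsDedekindDomain Fermat.Agent.S14.An
open scoped nonZeroDivisors

variable {k : Type*} [Field k] [NumberField k] (𝔪 : Ideal (𝓞 k))

theorem tsum_eq_sum_residues [Fintype (𝓞 k ⧸ 𝔪)] (J : Ideal (𝓞 k)) (hJ : IsCoprime J 𝔪) :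
    ∃ rep : 𝓞 k ⧸ 𝔪 → 𝓞 k, (∀ x, rep x ∈ J ∧ Ideal.Quotient.mk 𝔪 (rep x) = x) ∧
      ∀ f : 𝓞 k → ℝ, (∀ y, 0 ≤ f y) →
        (∀ x : 𝓞 k, Summable fun δ : (J * 𝔪 : Ideal (𝓞 k)) => f ((δ : 𝓞 k) + x)) →
        ∑' β : J, f (β : 𝓞 k) =
          ∑ x : 𝓞 k ⧸ 𝔪, ∑' δ : (J * 𝔪 : Ideal (𝓞 k)), f ((δ : 𝓞 k) + rep x) := by
  classical
  have hex : ∀ x : 𝓞 k ⧸ 𝔪, ∃ r : 𝓞 k, r ∈ J ∧ Ideal.Quotient.mk 𝔪 r = x := by
    intro x
    obtain ⟨y, rfl⟩ := Ideal.Quotient.mk_surjective x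
    have htop : J ⊔ 𝔪 = ⊤ := Ideal.isCoprime_iff_sup_eq.mp hJ
    have hy : y ∈ J ⊔ 𝔪 := by rw [htop]; exact Submodule.mem_top
    obtain ⟨j, hj, m, hm, rfl⟩ := Submodule.mem_sup.mp hy
    refine ⟨j, hj, ?_⟩
    rw [map_add, Ideal.Quotient.eq_zero_iff_mem.mpr hm, add_zero]
  choose rep hrepJ hrep using hex
  refine ⟨rep, fun x => ⟨hrepJ x, hrep x⟩, ?_⟩
  have hmul : J * 𝔪 = J ⊓ 𝔪 := Ideal.mul_eq_inf_of_isCoprime hJ
  have hle : J * 𝔪 ≤ J := Ideal.mul_le_left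
  have hle' : J * 𝔪 ≤ 𝔪 := Ideal.mul_le_right
  let e : (𝓞 k ⧸ 𝔪) × (J * 𝔪 : Ideal (𝓞 k)) ≃ J :=
    { toFun := fun p => ⟨(p.2 : 𝓞 k) + rep p.1, J.add_mem (hle p.2.2) (hrepJ p.1)⟩
      invFun := fun β => (Ideal.Quotient.mk 𝔪 (β : 𝓞 k),
        ⟨(β : 𝓞 k) - rep (Ideal.Quotient.mk 𝔪 (β : 𝓞 k)), by
          rw [hmul]
          refine ⟨J.sub_mem β.2 (hrepJ _), ?_⟩
          show _ ∈ 𝔪
          rw [← Ideal.Quotient.eq, hrep]⟩)
      left_inv := by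
        rintro ⟨x, δ⟩
        have hx : Ideal.Quotient.mk 𝔪 ((δ : 𝓞 k) + rep x) = x := by
          rw [map_add, Ideal.Quotient.eq_zero_iff_mem.mpr (hle' δ.2), zero_add, hrep]
        ext
        · exact hx
        · simp only [hx]
          exact congrArg _ (add_sub_cancel_right _ _)
      right_inv := by
        intro β
        ext
        simp }
  intro f hf hs
  rw [← e.tsum_eq (fun β : J => f (β : 𝓞 k))]
  have hsum : Summable fun p : (𝓞 k ⧸ 𝔪) × (J * 𝔪 : Ideal (𝓞 k)) => f ((e p : J) : 𝓞 k) := by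
    rw [summable_prod_of_nonneg (fun p => hf _)]
    exact ⟨fun q => hs (rep q), Summable.of_finite⟩
  rw [hsum.tsum_prod' (fun q => hs (rep q)), tsum_fintype]
  rfl

end Fermat.Agent.S55.A
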