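import Fermat.Agent.S55.A.Orbit
import Fermat.Agent.S55.A.Periodic
import Fermat.Agent.S55.A.Residues
import Fermat.Agent.S14.An.D2Main

/-!
# S55, analytic block (A), package A-4: the key lemma `pZ_sub_bounded`
-/

set_option autoImplicit false

namespace Fermat.Agent.S55.A

open NumberField IsDedekindDomain Fermat.Agent.S14.An
open scoped nonZeroDivisors

variable {k : Type*} [Field k] [NumberField k] (𝔪 : Ideal (𝓞 k))
  {A : Type*} [CommGroup A] (φ : (Ideal (𝓞 k))⁰ →* A)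

/-- the real-number manipulation. -/
theorem key_real {w nJ nm pz ν PD P1 T M B1 N : ℝ} (hw : 0 < w) (hN : 0 < N)
    (hnJ : 1 / N ≤ nJ) (hnm0 : 0 ≤ nm) (hnm1 : nm ≤ 1) (hν : 0 ≤ ν)
    (hT : T = w * (nJ * nm) * PD)
    (h1 : |w * nJ * pz - ν * T| ≤ M) (h2 : |PD - P1| ≤ B1) :
    |pz - ν * nm * P1| ≤ M * N / w + ν * B1 := by
  have hnJ0 : 0 < nJ := lt_of_lt_of_le (by positivity) hnJ
  have hM : 0 ≤ M := (abs_nonneg _).trans h1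
  have hB1 : 0 ≤ B1 := (abs_nonneg _).trans h2
  have e1 : pz - ν * nm * PD = (w * nJ * pz - ν * T) / (w * nJ) := by
    rw [hT]; field_simp
  have b1 : |pz - ν * nm * PD| ≤ M * N / w := by
    rw [e1, abs_div, abs_of_pos (by positivity : 0 < w * nJ), div_le_div_iff₀ (by positivity) hw]
    have h3 : 1 ≤ N * nJ := by
      have := mul_le_mul_of_nonneg_left hnJ hN.le
      rwa [mul_one_div_cancel hN.ne'] at this
    calc |w * nJ * pz - ν * T| * w ≤ M * w := mul_le_mul_of_nonneg_right h1 hw.le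
      _ = M * w * 1 := (mul_one _).symm
      _ ≤ M * w * (N * nJ) := mul_le_mul_of_nonneg_left h3 (by positivity)
      _ = M * N * (w * nJ) := by ring
  have b2 : |ν * nm * PD - ν * nm * P1| ≤ ν * B1 := by
    rw [← mul_sub, abs_mul, abs_of_nonneg (by positivity : 0 ≤ ν * nm)]
    calc ν * nm * |PD - P1| ≤ ν * 1 * B1 :=
          mul_le_mul (mul_le_mul_of_nonneg_left hnm1 hν) h2 (abs_nonneg _) (by positivity)
      _ = ν * B1 := by ring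
  calc |pz - ν * nm * P1| = |(pz - ν * nm * PD) + (ν * nm * PD - ν * nm * P1)| := by ring_nf
    _ ≤ _ := (abs_add_le _ _).trans (add_le_add b1 b2)

omit [NumberField k] in
theorem key_ind_nonneg (a : A) (I : (Ideal (𝓞 k))⁰) : 0 ≤ ind 𝔪 φ a I := by
  unfold ind; split_ifs <;> norm_num

omit [NumberField k] in
theorem key_ind_le_one (a : A) (I : (Ideal (𝓞 k))⁰) : ind 𝔪 φ a I ≤ 1 := by
  unfold ind; split_ifs <;> norm_num

omit [NumberField k] in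
theorem key_resInd_nonneg (a : A) (x : 𝓞 k ⧸ 𝔪) : 0 ≤ resInd 𝔪 φ a x := by
  unfold resInd; split_ifs <;> norm_num

omit [NumberField k] in
theorem key_resInd_le_one (a : A) (x : 𝓞 k ⧸ 𝔪) : resInd 𝔪 φ a x ≤ 1 := by
  unfold resInd; split_ifs <;> norm_num

omit [NumberField k] in
variable {𝔪} in
theorem key_ind_mul (J : (Ideal (𝓞 k))⁰) (hJ : IsCoprime (J : Ideal (𝓞 k)) 𝔪) (a : A)
    (I : (Ideal (𝓞 k))⁰) : ind 𝔪 φ (a * φ J) (J * I) = ind 𝔪 φ a I := by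
  unfold ind
  have h : (IsCoprime ((J * I : (Ideal (𝓞 k))⁰) : Ideal (𝓞 k)) 𝔪 ∧ φ (J * I) = a * φ J) ↔
      (IsCoprime (I : Ideal (𝓞 k)) 𝔪 ∧ φ I = a) := by
    rw [Submonoid.coe_mul, IsCoprime.mul_left_iff, map_mul, mul_comm (φ J), mul_left_inj]
    exact ⟨fun h => ⟨h.1.2, h.2⟩, fun h => ⟨⟨hJ, h.1⟩, h.2⟩⟩
  classical
  exact if_congr h rfl rfl

variable {𝔪 φ} in
theorem pZ_sub_bounded (h𝔪 : 𝔪 ≠ ⊥) (h1 : RayTrivial 𝔪 φ) (J : (Ideal (𝓞 k))⁰)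
    (hJ : IsCoprime (J : Ideal (𝓞 k)) 𝔪) (a : A) :
    ∃ B : ℝ, ∀ s : ℝ, 1 < s → s ≤ 2 →
      |pZ 𝔪 φ (ClassGroup.mk0 J)⁻¹ a s -
        (nu 𝔪 φ (a * φ J) : ℝ) * nrm k s 𝔪 * partialZeta k 1 s| ≤ B := by
  classical
  obtain ⟨c, B, hc, hB⟩ := exists_coef k
  set a' : A := a * φ J with ha'
  let Mz : (Ideal (𝓞 k))⁰ := ⟨𝔪, mem_nonZeroDivisors_of_ne_zero h𝔪⟩
  set D : (Ideal (𝓞 k))⁰ := J * Mz with hD
  have hDcoe : (D : Ideal (𝓞 k)) = (J : Ideal (𝓞 k)) * 𝔪 := rfl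
  have hfin : Finite (𝓞 k ⧸ 𝔪) := Ideal.finiteQuotientOfFreeOfNeBot 𝔪 h𝔪
  let _ : Fintype (𝓞 k ⧸ 𝔪) := Fintype.ofFinite _
  obtain ⟨rep, hrep, hdec⟩ := tsum_eq_sum_residues 𝔪 (J : Ideal (𝓞 k)) hJ
  choose M hM using fun x : 𝓞 k => shift_bounded c B hB D x
  obtain ⟨B1, hB1⟩ := partialZeta_sub_bounded k (ClassGroup.mk0 D)⁻¹ 1
  have hw : (0 : ℝ) < (Units.torsionOrder k : ℝ) := by
    exact_mod_cast Units.torsionOrder_pos k
  have hNJ : (1 : ℝ) ≤ (Ideal.absNorm (J : Ideal (𝓞 k)) : ℝ) := by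
    exact_mod_cast D2e_absNorm_pos J
  have hNm : (1 : ℝ) ≤ (Ideal.absNorm 𝔪 : ℝ) := by
    exact_mod_cast D2e_absNorm_pos Mz
  refine ⟨(∑ x, M (rep x)) * (Ideal.absNorm (J : Ideal (𝓞 k)) : ℝ) ^ 2 /
    (Units.torsionOrder k : ℝ) + (nu 𝔪 φ a' : ℝ) * B1, fun s hs hs2 => ?_⟩
  -- (i)
  have e1 := tsum_Fs_mul_eq c hc J hs (ind 𝔪 φ a') (key_ind_nonneg 𝔪 φ a') (key_ind_le_one 𝔪 φ a')
  have e1' : (∑' I : {I : (Ideal (𝓞 k))⁰ // ClassGroup.mk0 I = (ClassGroup.mk0 J)⁻¹},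
      ind 𝔪 φ a' (J * (I : (Ideal (𝓞 k))⁰)) * nrm k s ((I : (Ideal (𝓞 k))⁰) : Ideal (𝓞 k)))
      = pZ 𝔪 φ (ClassGroup.mk0 J)⁻¹ a s := by
    unfold pZ
    refine tsum_congr fun I => ?_
    rw [ha', key_ind_mul φ J hJ a]
  rw [e1'] at e1
  -- (ii)
  let f : 𝓞 k → ℝ := fun y => Fs c s (y : k) * resInd 𝔪 φ a' (Ideal.Quotient.mk 𝔪 y)
  have hf0 : ∀ y, 0 ≤ f y := fun y =>
    mul_nonneg (D2e_Fs_nonneg c s _) (key_resInd_nonneg 𝔪 φ a' _)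
  have e2 : (∑' β : (J : Ideal (𝓞 k)), Fs c s ((β : 𝓞 k) : k) *
        (if h : (β : 𝓞 k) = 0 then 0 else ind 𝔪 φ a' (spanNZ (β : 𝓞 k) h)))
      = ∑' β : (J : Ideal (𝓞 k)), f (β : 𝓞 k) := by
    refine tsum_congr fun β => ?_
    by_cases h : (β : 𝓞 k) = 0
    · simp only [f, h, dif_pos, mul_zero, map_zero]
      rw [orb_Fs_zero c (by linarith : s ≠ 0), zero_mul]
    · simp only [f, h, dif_neg, not_false_eq_true]
      rw [ind_spanNZ h1]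
  -- (iii)
  have hsum : ∀ x : 𝓞 k, Summable fun δ : ((J : Ideal (𝓞 k)) * 𝔪 : Ideal (𝓞 k)) =>
      f ((δ : 𝓞 k) + x) := by
    intro x
    refine Summable.of_nonneg_of_le (fun δ => hf0 _) (fun δ => ?_) (summable_Fs c B hB D x hs)
    exact mul_le_of_le_one_right (D2e_Fs_nonneg c s _) (key_resInd_le_one 𝔪 φ a' _)
  have e3 := hdec f hf0 hsum
  have e4 : ∀ x : 𝓞 k ⧸ 𝔪, (∑' δ : ((J : Ideal (𝓞 k)) * 𝔪 : Ideal (𝓞 k)), f ((δ : 𝓞 k) + rep x))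
      = (∑' δ : (D : Ideal (𝓞 k)), Fs c s (((δ : 𝓞 k) + rep x : 𝓞 k) : k)) * resInd 𝔪 φ a' x := by
    intro x
    rw [← tsum_mul_right]
    refine tsum_congr fun δ => ?_
    have hδ : (δ : 𝓞 k) ∈ 𝔪 := (Ideal.mul_le_right (I := (J : Ideal (𝓞 k))) (J := 𝔪)) δ.2
    have : Ideal.Quotient.mk 𝔪 ((δ : 𝓞 k) + rep x) = x := by
      rw [map_add, Ideal.Quotient.eq_zero_iff_mem.mpr hδ, zero_add, (hrep x).2]
    simp only [f, this]
  -- (iv)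
  have e5 : |(Units.torsionOrder k : ℝ) * nrm k s (J : Ideal (𝓞 k)) *
      pZ 𝔪 φ (ClassGroup.mk0 J)⁻¹ a s - (nu 𝔪 φ a' : ℝ) * Tsum c (D : Ideal (𝓞 k)) s|
      ≤ ∑ x, M (rep x) := by
    rw [← e1, e2, e3, ← sum_resInd 𝔪 φ a', Finset.sum_mul, ← Finset.sum_sub_distrib]
    refine (Finset.abs_sum_le_sum_abs _ _).trans (Finset.sum_le_sum fun x _ => ?_)
    rw [e4 x, mul_comm (resInd 𝔪 φ a' x), ← sub_mul, abs_mul,
      abs_of_nonneg (key_resInd_nonneg 𝔪 φ a' x)]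
    exact (mul_le_of_le_one_right (abs_nonneg _) (key_resInd_le_one 𝔪 φ a' x)).trans
      (hM (rep x) s hs hs2)
  -- (v)
  have e6 : Tsum c (D : Ideal (𝓞 k)) s = (Units.torsionOrder k : ℝ) *
      (nrm k s (J : Ideal (𝓞 k)) * nrm k s 𝔪) * partialZeta k (ClassGroup.mk0 D)⁻¹ s := by
    rw [Tsum_eq c hc D hs, hDcoe, orb_nrm_mul]
  -- (vi)
  refine key_real hw (by positivity) ?_ (Real.rpow_nonneg (Nat.cast_nonneg _) _) ?_
    (Nat.cast_nonneg _) e6 e5 (hB1 s hs hs2)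
  · rw [nrm, one_div, ← Real.rpow_two, ← Real.rpow_neg (by positivity)]
    exact Real.rpow_le_rpow_of_exponent_le hNJ (by linarith)
  · exact Real.rpow_le_one_of_one_le_of_nonpos hNm (by linarith)

end Fermat.Agent.S55.A
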