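import Fermat.Agent.S55.A.Defs
import Fermat.Agent.S14.An.Final

/-!
# S55, analytic block (A-6): `LS` as a finite combination of the `pZ`; lower bound for `partialZeta 1`
-/

set_option autoImplicit false

namespace Fermat.Agent.S55.A

open NumberField IsDedekindDomain Fermat.Agent.S14.An
open scoped nonZeroDivisors

variable {k : Type*} [Field k] [NumberField k] (𝔪 : Ideal (𝓞 k))
  {A : Type*} [CommGroup A] (φ : (Ideal (𝓞 k))⁰ →* A)

omit [NumberField k] in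
theorem LSDecomp_ind_nonneg (a : A) (I : (Ideal (𝓞 k))⁰) : 0 ≤ ind 𝔪 φ a I := by
  unfold ind
  split_ifs <;> norm_num

omit [NumberField k] in
theorem LSDecomp_ind_le_one (a : A) (I : (Ideal (𝓞 k))⁰) : ind 𝔪 φ a I ≤ 1 := by
  unfold ind
  split_ifs <;> norm_num

omit [NumberField k] in
theorem LSDecomp_coef_eq_sum [Fintype A] (ψ : AddChar (Additive A) ℂ) (I : (Ideal (𝓞 k))⁰) :
    coef 𝔪 φ ψ I = ∑ a : A, ψ (Additive.ofMul a) * ((ind 𝔪 φ a I : ℝ) : ℂ) := by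
  classical
  unfold coef ind
  by_cases h : IsCoprime (I : Ideal (𝓞 k)) 𝔪
  · rw [if_pos h, Finset.sum_eq_single (φ I)]
    · simp [h]
    · intro b _ hb
      rw [if_neg (fun hh => hb hh.2.symm)]
      simp
    · intro hh
      exact absurd (Finset.mem_univ _) hh
  · rw [if_neg h]
    symm
    apply Finset.sum_eq_zero
    intro b _
    rw [if_neg (fun hh => h hh.1)]
    simp

omit [NumberField k] in
theorem LSDecomp_norm_coef_le [Finite A] (ψ : AddChar (Additive A) ℂ) (I : (Ideal (𝓞 k))⁰) :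
    ‖coef 𝔪 φ ψ I‖ ≤ 1 := by
  classical
  unfold coef
  split_ifs
  · exact (AddChar.norm_apply ψ _).le
  · simp

theorem LSDecomp_summable_LS_term [Finite A] (ψ : AddChar (Additive A) ℂ) {s : ℝ} (hs : 1 < s) :
    Summable fun I : (Ideal (𝓞 k))⁰ =>
      coef 𝔪 φ ψ I * ((nrm k s (I : Ideal (𝓞 k)) : ℝ) : ℂ) := by
  refine Summable.of_norm_bounded (summable_nrm hs) fun I => ?_
  rw [norm_mul, Complex.norm_real, Real.norm_of_nonneg (Ker.nrm_nonneg _ _)]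
  exact mul_le_of_le_one_left (Ker.nrm_nonneg _ _) (LSDecomp_norm_coef_le 𝔪 φ ψ I)

theorem LSDecomp_summable_ind (C : ClassGroup (𝓞 k)) (a : A) {s : ℝ} (hs : 1 < s) :
    Summable fun I : {I : (Ideal (𝓞 k))⁰ // ClassGroup.mk0 I = C} =>
      ind 𝔪 φ a (I : (Ideal (𝓞 k))⁰) * nrm k s ((I : (Ideal (𝓞 k))⁰) : Ideal (𝓞 k)) := by
  have h1 : Summable fun I : {I : (Ideal (𝓞 k))⁰ // ClassGroup.mk0 I = C} =>
      nrm k s ((I : (Ideal (𝓞 k))⁰) : Ideal (𝓞 k)) :=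
    (summable_nrm (K := k) hs).subtype _
  refine Summable.of_nonneg_of_le (fun I => mul_nonneg (LSDecomp_ind_nonneg _ _ _ _)
    (Ker.nrm_nonneg _ _)) (fun I => ?_) h1
  exact mul_le_of_le_one_left (Ker.nrm_nonneg _ _) (LSDecomp_ind_le_one _ _ _ _)

theorem LS_eq_sum [Fintype A] (ψ : AddChar (Additive A) ℂ) {s : ℝ} (hs : 1 < s) :
    LS 𝔪 φ ψ s = ∑ C : ClassGroup (𝓞 k), ∑ a : A,
      ψ (Additive.ofMul a) * ((pZ 𝔪 φ C a s : ℝ) : ℂ) := by
  have h1 := (LSDecomp_summable_LS_term 𝔪 φ ψ hs).hasSum.tsum_fiberwise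
    (fun I : (Ideal (𝓞 k))⁰ => ClassGroup.mk0 I)
  have h2 := h1.tsum_eq
  rw [tsum_fintype] at h2
  rw [LS, ← h2]
  refine Finset.sum_congr rfl fun C _ => ?_
  have h3 : ∀ I : {I : (Ideal (𝓞 k))⁰ // ClassGroup.mk0 I = C},
      coef 𝔪 φ ψ (I : (Ideal (𝓞 k))⁰) *
        ((nrm k s ((I : (Ideal (𝓞 k))⁰) : Ideal (𝓞 k)) : ℝ) : ℂ) =
      ∑ a : A, ψ (Additive.ofMul a) * (((ind 𝔪 φ a (I : (Ideal (𝓞 k))⁰) *
        nrm k s ((I : (Ideal (𝓞 k))⁰) : Ideal (𝓞 k)) : ℝ)) : ℂ) := by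
    intro I
    rw [LSDecomp_coef_eq_sum, Finset.sum_mul]
    refine Finset.sum_congr rfl fun a _ => ?_
    push_cast
    ring
  have h4 : ∀ a : A, Summable fun I : {I : (Ideal (𝓞 k))⁰ // ClassGroup.mk0 I = C} =>
      ψ (Additive.ofMul a) * (((ind 𝔪 φ a (I : (Ideal (𝓞 k))⁰) *
        nrm k s ((I : (Ideal (𝓞 k))⁰) : Ideal (𝓞 k)) : ℝ)) : ℂ) := fun a =>
    (Complex.ofRealCLM.summable (LSDecomp_summable_ind 𝔪 φ C a hs)).mul_left _
  calc _ = ∑' I : {I : (Ideal (𝓞 k))⁰ // ClassGroup.mk0 I = C},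
      coef 𝔪 φ ψ (I : (Ideal (𝓞 k))⁰) *
        ((nrm k s ((I : (Ideal (𝓞 k))⁰) : Ideal (𝓞 k)) : ℝ) : ℂ) := rfl
    _ = _ := by
      rw [tsum_congr h3, Summable.tsum_finsetSum (fun a _ => h4 a)]
      refine Finset.sum_congr rfl fun a _ => ?_
      rw [tsum_mul_left, pZ, Complex.ofReal_tsum]

theorem LSDecomp_idealZeta_eq_sum {s : ℝ} (hs : 1 < s) :
    idealZeta k s = ∑ C : ClassGroup (𝓞 k), partialZeta k C s := by
  have h1 := (summable_nrm (K := k) hs).hasSum.tsum_fiberwise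
    (fun I : (Ideal (𝓞 k))⁰ => ClassGroup.mk0 I)
  have h2 := h1.tsum_eq
  rw [tsum_fintype] at h2
  rw [idealZeta, ← h2]
  rfl

variable (k) in
theorem partialZeta_one_lower : ∃ c B : ℝ, 0 < c ∧ ∀ s : ℝ, 1 < s → s ≤ 2 →
    c / (s - 1) - B ≤ partialZeta k 1 s := by
  obtain ⟨c₀, C₀, hc₀, -, hZ⟩ := idealZeta_bounds k
  choose B hB using fun C : ClassGroup (𝓞 k) => partialZeta_sub_bounded k C 1
  set h : ℝ := (Fintype.card (ClassGroup (𝓞 k)) : ℝ) with hh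
  have hpos : 0 < h := by
    rw [hh]
    exact_mod_cast Fintype.card_pos
  refine ⟨c₀ / h, (∑ C, B C) / h, by positivity, fun s hs hs2 => ?_⟩
  have h1 := (hZ s hs hs2).1
  rw [LSDecomp_idealZeta_eq_sum hs] at h1
  have h2 : ∑ C : ClassGroup (𝓞 k), partialZeta k C s ≤
      ∑ C : ClassGroup (𝓞 k), (partialZeta k 1 s + B C) := by
    refine Finset.sum_le_sum fun C _ => ?_
    have := (abs_le.mp (hB C s hs hs2)).2
    linarith
  rw [Finset.sum_add_distrib, Finset.sum_const, Finset.card_univ, nsmul_eq_mul, ← hh] at h2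
  have h3 : c₀ / (s - 1) ≤ h * partialZeta k 1 s + ∑ C, B C := h1.trans h2
  have h4 : c₀ / h / (s - 1) - (∑ C, B C) / h = (c₀ / (s - 1) - ∑ C, B C) / h := by
    have hs1 : s - 1 ≠ 0 := by linarith
    field_simp
  rw [h4, div_le_iff₀ hpos]
  linarith

end Fermat.Agent.S55.A
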