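import Fermat.Agent.S55.A.LSBoundedOf
import Fermat.Agent.S55.A.Key
import Fermat.Agent.S55.A.Coprime
import Fermat.Agent.S55.A.LSDecomp

/-!
# S55, analytic block (A-7): `LS` is bounded near `1` for a nontrivial character
-/

set_option autoImplicit false

namespace Fermat.Agent.S55.A

open NumberField IsDedekindDomain Fermat.Agent.S14.An
open scoped nonZeroDivisors

variable {k : Type*} [Field k] [NumberField k] {𝔪 : Ideal (𝓞 k)}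
  {A : Type*} [CommGroup A] {φ : (Ideal (𝓞 k))⁰ →* A}

theorem LS_bounded [Finite A] (h𝔪 : 𝔪 ≠ ⊥) (h1 : RayTrivial 𝔪 φ) (ψ : AddChar (Additive A) ℂ)
    (I₀ : (Ideal (𝓞 k))⁰) (hI₀ : IsCoprime (I₀ : Ideal (𝓞 k)) 𝔪)
    (hψ : ψ (Additive.ofMul (φ I₀)) ≠ 1) :
    ∃ B : ℝ, ∀ s : ℝ, 1 < s → s ≤ 2 → ‖LS 𝔪 φ ψ s‖ ≤ B :=
  LS_bounded_of h𝔪 (fun J hJ a => pZ_sub_bounded h𝔪 h1 J hJ a) (fun C => exists_coprime_rep h𝔪 C) ψ
    (fun s hs => LS_eq_sum 𝔪 φ ψ hs) (partialZeta_one_lower k) I₀ hI₀ hψ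

end Fermat.Agent.S55.A
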