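import Fermat.Agent.S55.A.KerPrimesCore
import Fermat.Agent.S55.A.LSBounded
import Fermat.Agent.S55.A.Euler

/-!
# S55, analytic block (A-9): primes in the kernel of `φ` have density `≤ 1/|A|` (final form)
-/

set_option autoImplicit false

namespace Fermat.Agent.S55.A

open NumberField IsDedekindDomain Fermat.Agent.S14.An
open scoped nonZeroDivisors

variable {k : Type*} [Field k] [NumberField k] {𝔪 : Ideal (𝓞 k)}
  {A : Type*} [CommGroup A] {φ : (Ideal (𝓞 k))⁰ →* A}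

theorem primeSum_kerPrimes_le [Finite A] (h𝔪 : 𝔪 ≠ ⊥) (h1 : RayTrivial 𝔪 φ)
    (hsurj : ∀ a : A, ∃ I : (Ideal (𝓞 k))⁰, IsCoprime (I : Ideal (𝓞 k)) 𝔪 ∧ φ I = a) :
    ∃ C : ℝ, ∀ s : ℝ, 1 < s → s ≤ 2 →
      primeSum (kerPrimes 𝔪 φ) s ≤ (1 / (Nat.card A : ℝ)) * Real.log (1 / (s - 1)) + C :=
  primeSum_kerPrimes_le_of (exp_le_norm_LS 𝔪 φ) (fun ψ _ hs => norm_LS_le 𝔪 φ ψ hs)
    (fun ψ I₀ hI₀ hψ => LS_bounded h𝔪 h1 ψ I₀ hI₀ hψ) hsurj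

end Fermat.Agent.S55.A
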