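import Fermat.Agent.S55.A.Defs
import Fermat.Agent.S14.An.Final

/-!
# S55, analytic block (A), package A-9 : primes in the kernel of `φ` have density `≤ 1/|A|`
(core version, the black boxes A-7, A-8 are hypotheses)
-/

set_option autoImplicit false

namespace Fermat.Agent.S55.A

open NumberField IsDedekindDomain Fermat.Agent.S14.An
open scoped nonZeroDivisors

variable {k : Type*} [Field k] [NumberField k] (𝔪 : Ideal (𝓞 k))
  {A : Type*} [CommGroup A] (φ : (Ideal (𝓞 k))⁰ →* A)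

theorem KerPrimes_isCoprime_iff (v : HeightOneSpectrum (𝓞 k)) :
    IsCoprime v.asIdeal 𝔪 ↔ ¬ 𝔪 ≤ v.asIdeal := by
  rw [Ideal.isCoprime_iff_sup_eq]
  constructor
  · intro h hle
    rw [sup_eq_left.mpr hle] at h
    exact v.isPrime.ne_top h
  · intro h
    by_contra hne
    have := v.isMaximal.eq_of_le hne le_sup_left
    exact h (this ▸ le_sup_right)

omit [NumberField k] in
theorem KerPrimes_norm_coef_le [Finite A] (ψ : AddChar (Additive A) ℂ) (I : (Ideal (𝓞 k))⁰) :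
    ‖coef 𝔪 φ ψ I‖ ≤ 1 := by
  classical
  unfold coef
  split_ifs
  · exact (AddChar.norm_apply ψ _).le
  · simp

open Classical in
theorem KerPrimes_sum_coef [Fintype A] (v : HeightOneSpectrum (𝓞 k)) :
    ∑ ψ : AddChar (Additive A) ℂ, (coef 𝔪 φ ψ (primeNZ v)).re =
      if v ∈ kerPrimes 𝔪 φ then (Fintype.card A : ℝ) else 0 := by
  rw [← Complex.re_sum]
  by_cases hc : IsCoprime v.asIdeal 𝔪
  · have h1 : ∀ ψ : AddChar (Additive A) ℂ,
        coef 𝔪 φ ψ (primeNZ v) = ψ (Additive.ofMul (φ (primeNZ v))) := by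
      intro ψ
      unfold coef
      rw [if_pos (show IsCoprime ((primeNZ v : (Ideal (𝓞 k))⁰) : Ideal (𝓞 k)) 𝔪 from hc)]
    simp_rw [h1]
    rw [AddChar.sum_apply_eq_ite]
    have hc' := (KerPrimes_isCoprime_iff 𝔪 v).mp hc
    by_cases hφ : φ (primeNZ v) = 1
    · rw [if_pos (by simpa using hφ), if_pos (show v ∈ kerPrimes 𝔪 φ from ⟨hc', hφ⟩)]
      simp
    · rw [if_neg (by simpa using hφ), if_neg (fun h : v ∈ kerPrimes 𝔪 φ => hφ h.2)]
      simp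
  · have h1 : ∀ ψ : AddChar (Additive A) ℂ, coef 𝔪 φ ψ (primeNZ v) = 0 := by
      intro ψ
      unfold coef
      rw [if_neg (show ¬ IsCoprime ((primeNZ v : (Ideal (𝓞 k))⁰) : Ideal (𝓞 k)) 𝔪 from hc)]
    simp_rw [h1]
    rw [if_neg (fun h : v ∈ kerPrimes 𝔪 φ => hc ((KerPrimes_isCoprime_iff 𝔪 v).mpr h.1))]
    simp

theorem KerPrimes_summable [Finite A] (ψ : AddChar (Additive A) ℂ) {s : ℝ} (hs : 1 < s) :
    Summable fun v : HeightOneSpectrum (𝓞 k) =>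
      (coef 𝔪 φ ψ (primeNZ v)).re * nrm k s v.asIdeal := by
  refine Summable.of_norm_bounded (Ker.summable_nrm_prime (fun s hs => summable_nrm hs) hs)
    fun v => ?_
  rw [norm_mul, Real.norm_of_nonneg (Ker.nrm_nonneg _ _)]
  have h1 : ‖(coef 𝔪 φ ψ (primeNZ v)).re‖ ≤ 1 := by
    rw [Real.norm_eq_abs]
    exact (Complex.abs_re_le_norm _).trans (KerPrimes_norm_coef_le 𝔪 φ ψ _)
  exact mul_le_of_le_one_left (Ker.nrm_nonneg _ _) h1

theorem KerPrimes_sum_tsum [Fintype A] {s : ℝ} (hs : 1 < s) :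
    ∑ ψ : AddChar (Additive A) ℂ, ∑' v : HeightOneSpectrum (𝓞 k),
      (coef 𝔪 φ ψ (primeNZ v)).re * nrm k s v.asIdeal =
    (Fintype.card A : ℝ) * primeSum (kerPrimes 𝔪 φ) s := by
  classical
  rw [← Summable.tsum_finsetSum fun ψ _ => KerPrimes_summable 𝔪 φ ψ hs,
    primeSum, tsum_subtype (kerPrimes 𝔪 φ)
      (fun v : HeightOneSpectrum (𝓞 k) => nrm k s v.asIdeal), ← tsum_mul_left]
  refine tsum_congr fun v => ?_
  rw [← Finset.sum_mul, KerPrimes_sum_coef]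
  by_cases h : v ∈ kerPrimes 𝔪 φ
  · rw [if_pos h, Set.indicator_of_mem h]
  · rw [if_neg h, Set.indicator_of_notMem h]
    simp

variable {𝔪 φ} in
theorem primeSum_kerPrimes_le_of [Finite A]
    (hexp : ∃ C : ℝ, ∀ (ψ : AddChar (Additive A) ℂ) (s : ℝ), 1 < s → s ≤ 2 →
      Real.exp ((∑' v : HeightOneSpectrum (𝓞 k),
        (coef 𝔪 φ ψ (primeNZ v)).re * nrm k s v.asIdeal) - C) ≤ ‖LS 𝔪 φ ψ s‖)
    (hle : ∀ (ψ : AddChar (Additive A) ℂ) (s : ℝ), 1 < s → ‖LS 𝔪 φ ψ s‖ ≤ idealZeta k s)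
    (hbd : ∀ (ψ : AddChar (Additive A) ℂ) (I₀ : (Ideal (𝓞 k))⁰),
      IsCoprime (I₀ : Ideal (𝓞 k)) 𝔪 → ψ (Additive.ofMul (φ I₀)) ≠ 1 →
      ∃ B : ℝ, ∀ s : ℝ, 1 < s → s ≤ 2 → ‖LS 𝔪 φ ψ s‖ ≤ B)
    (hsurj : ∀ a : A, ∃ I : (Ideal (𝓞 k))⁰, IsCoprime (I : Ideal (𝓞 k)) 𝔪 ∧ φ I = a) :
    ∃ C : ℝ, ∀ s : ℝ, 1 < s → s ≤ 2 →
      primeSum (kerPrimes 𝔪 φ) s ≤ (1 / (Nat.card A : ℝ)) * Real.log (1 / (s - 1)) + C := by
  classical
  have : Fintype A := Fintype.ofFinite A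
  obtain ⟨c, Cz, hc, hCz, hz⟩ := idealZeta_bounds (K := k)
  obtain ⟨C0, hexp⟩ := hexp
  have hB' : ∀ ψ : AddChar (Additive A) ℂ, ∃ B : ℝ, ψ ≠ 0 → ∀ s : ℝ, 1 < s → s ≤ 2 →
      ‖LS 𝔪 φ ψ s‖ ≤ B := by
    intro ψ
    by_cases hψ : ψ = 0
    · exact ⟨0, fun h => absurd hψ h⟩
    · obtain ⟨a, ha⟩ := AddChar.ne_zero_iff.mp hψ
      obtain ⟨I₀, hI₀, hφ⟩ := hsurj (Additive.toMul a)
      obtain ⟨B, hB⟩ := hbd ψ I₀ hI₀ (by rw [hφ]; simpa using ha)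
      exact ⟨B, fun _ => hB⟩
  choose B hB using hB'
  have hcard : (0 : ℝ) < (Fintype.card A : ℝ) := by exact_mod_cast Fintype.card_pos
  rw [Nat.card_eq_fintype_card]
  refine ⟨(1 / (Fintype.card A : ℝ)) * ∑ ψ : AddChar (Additive A) ℂ,
    (C0 + if ψ = 0 then Real.log Cz else Real.log (B ψ)), fun s hs hs2 => ?_⟩
  have hs1 : 0 < s - 1 := sub_pos.mpr hs
  have key : ∀ ψ : AddChar (Additive A) ℂ, ∑' v : HeightOneSpectrum (𝓞 k),
      (coef 𝔪 φ ψ (primeNZ v)).re * nrm k s v.asIdeal ≤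
      (C0 + if ψ = 0 then Real.log Cz else Real.log (B ψ)) +
        if ψ = 0 then Real.log (1 / (s - 1)) else 0 := by
    intro ψ
    have h1 := hexp ψ s hs hs2
    by_cases hψ : ψ = 0
    · rw [if_pos hψ, if_pos hψ]
      have h2 : ‖LS 𝔪 φ ψ s‖ ≤ Cz / (s - 1) := (hle ψ s hs).trans (hz s hs hs2).2
      have h3 := Real.log_le_log (Real.exp_pos _) (h1.trans h2)
      rw [Real.log_exp, div_eq_mul_one_div, Real.log_mul hCz.ne' (one_div_pos.mpr hs1).ne'] at h3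
      linarith
    · rw [if_neg hψ, if_neg hψ]
      have h3 := Real.log_le_log (Real.exp_pos _) (h1.trans (hB ψ hψ s hs hs2))
      rw [Real.log_exp] at h3
      linarith
  have hsumj := Finset.sum_le_sum
    fun ψ (_ : ψ ∈ (Finset.univ : Finset (AddChar (Additive A) ℂ))) => key ψ
  rw [KerPrimes_sum_tsum 𝔪 φ hs, Finset.sum_add_distrib, Finset.sum_ite_eq'] at hsumj
  simp only [Finset.mem_univ, if_true] at hsumj
  have : primeSum (kerPrimes 𝔪 φ) s =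
      (1 / (Fintype.card A : ℝ)) * ((Fintype.card A : ℝ) * primeSum (kerPrimes 𝔪 φ) s) := by
    field_simp
  rw [this, ← mul_add]
  refine mul_le_mul_of_nonneg_left ?_ (by positivity)
  linarith

end Fermat.Agent.S55.A
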