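import Fermat.Agent.S55.A.Defs

/-!
# S55, analytic block (A-7): `LS` is bounded near `1` for a nontrivial character
-/

set_option autoImplicit false

namespace Fermat.Agent.S55.A

open NumberField IsDedekindDomain Fermat.Agent.S14.An
open scoped nonZeroDivisors

variable {k : Type*} [Field k] [NumberField k] (𝔪 : Ideal (𝓞 k))
  {A : Type*} [CommGroup A] (φ : (Ideal (𝓞 k))⁰ →* A)

/-- elementary: a quantity blowing up like `1/(s-1)` times `η ≥ 0` stays bounded only if `η = 0`. -/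
theorem LSBounded_aux (Z : ℝ → ℝ) (c B m0 : ℝ) (hc : 0 < c) (hm0 : 0 < m0)
    (hZ : ∀ s : ℝ, 1 < s → s ≤ 2 → m0 * (c / (s - 1) - B) ≤ Z s) (η D : ℝ) (hη : 0 ≤ η)
    (h : ∀ s : ℝ, 1 < s → s ≤ 2 → Z s * η ≤ D) : η = 0 := by
  by_contra hne
  have hη' : 0 < η := lt_of_le_of_ne hη (Ne.symm hne)
  set X : ℝ := (|D| + 1) / (m0 * η) with hX
  have hXpos : 0 < X := by positivity
  set Y : ℝ := X + |B| + 1 with hY
  have hYpos : 0 < Y := by positivity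
  set ε : ℝ := min 1 (c / Y) with hε
  have hεpos : 0 < ε := lt_min one_pos (by positivity)
  have hε1 : ε ≤ 1 := min_le_left _ _
  have hε2 : ε ≤ c / Y := min_le_right _ _
  have h1 : Y ≤ c / ε := by
    rw [le_div_iff₀ hεpos]
    calc Y * ε ≤ Y * (c / Y) := by gcongr
      _ = c := by field_simp
  have hs1 : (1 : ℝ) < 1 + ε := by linarith
  have hs2 : 1 + ε ≤ 2 := by linarith
  have h2 := hZ (1 + ε) hs1 hs2
  have h3 := h (1 + ε) hs1 hs2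
  have h4 : (1 + ε - 1) = ε := by ring
  rw [h4] at h2
  have h5 : X < c / ε - B := by
    have := le_abs_self B
    linarith
  have h6 : m0 * X * η = |D| + 1 := by
    rw [hX]; field_simp
  have h7 : m0 * X * η < Z (1 + ε) * η := by
    apply mul_lt_mul_of_pos_right _ hη'
    calc m0 * X < m0 * (c / ε - B) := by gcongr
      _ ≤ _ := h2
  have := le_abs_self D
  linarith

/-- the weighted count attached to a system of representatives. -/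
noncomputable def LSBounded_W [Fintype A] (ψ : AddChar (Additive A) ℂ)
    (rep : ClassGroup (𝓞 k) → (Ideal (𝓞 k))⁰) : ℂ :=
  ∑ C : ClassGroup (𝓞 k), ∑ a : A, ψ (Additive.ofMul a) * (nu 𝔪 φ (a * φ (rep C)) : ℂ)

variable {𝔪 φ}

theorem LSBounded_step1 [Fintype A]
    (hpZ : ∀ (J : (Ideal (𝓞 k))⁰), IsCoprime (J : Ideal (𝓞 k)) 𝔪 → ∀ a : A,
      ∃ B : ℝ, ∀ s : ℝ, 1 < s → s ≤ 2 →
      |pZ 𝔪 φ (ClassGroup.mk0 J)⁻¹ a s -
        (nu 𝔪 φ (a * φ J) : ℝ) * nrm k s 𝔪 * partialZeta k 1 s| ≤ B)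
    (ψ : AddChar (Additive A) ℂ)
    (hLS : ∀ s : ℝ, 1 < s → LS 𝔪 φ ψ s = ∑ C : ClassGroup (𝓞 k), ∑ a : A,
      ψ (Additive.ofMul a) * ((pZ 𝔪 φ C a s : ℝ) : ℂ))
    (rep : ClassGroup (𝓞 k) → (Ideal (𝓞 k))⁰) (hrep : ∀ C, ClassGroup.mk0 (rep C) = C⁻¹)
    (hcop : ∀ C, IsCoprime (rep C : Ideal (𝓞 k)) 𝔪) :
    ∃ B : ℝ, ∀ s : ℝ, 1 < s → s ≤ 2 →
      ‖LS 𝔪 φ ψ s - ((nrm k s 𝔪 * partialZeta k 1 s : ℝ) : ℂ) * LSBounded_W 𝔪 φ ψ rep‖ ≤ B := by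
  choose B hB using fun (C : ClassGroup (𝓞 k)) (a : A) => hpZ (rep C) (hcop C) a
  refine ⟨∑ C : ClassGroup (𝓞 k), ∑ a : A, B C a, fun s hs1 hs2 => ?_⟩
  have h1 : LS 𝔪 φ ψ s - ((nrm k s 𝔪 * partialZeta k 1 s : ℝ) : ℂ) * LSBounded_W 𝔪 φ ψ rep =
      ∑ C : ClassGroup (𝓞 k), ∑ a : A, ψ (Additive.ofMul a) *
        (((pZ 𝔪 φ C a s - (nu 𝔪 φ (a * φ (rep C)) : ℝ) * nrm k s 𝔪 * partialZeta k 1 s : ℝ)) : ℂ) := by
    rw [hLS s hs1, LSBounded_W, Finset.mul_sum, ← Finset.sum_sub_distrib]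
    refine Finset.sum_congr rfl fun C _ => ?_
    rw [Finset.mul_sum, ← Finset.sum_sub_distrib]
    refine Finset.sum_congr rfl fun a _ => ?_
    push_cast
    ring
  rw [h1]
  refine (norm_sum_le _ _).trans (Finset.sum_le_sum fun C _ => ?_)
  refine (norm_sum_le _ _).trans (Finset.sum_le_sum fun a _ => ?_)
  rw [norm_mul, AddChar.norm_apply, one_mul, Complex.norm_real, Real.norm_eq_abs]
  have := hB C a s hs1 hs2
  rwa [hrep, inv_inv] at this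

theorem LSBounded_W_shift [Fintype A] (ψ : AddChar (Additive A) ℂ)
    (rep : ClassGroup (𝓞 k) → (Ideal (𝓞 k))⁰) (I₀ : (Ideal (𝓞 k))⁰) :
    LSBounded_W 𝔪 φ ψ (fun C => rep (C * ClassGroup.mk0 I₀) * I₀) =
      ψ (Additive.ofMul (φ I₀)⁻¹) * LSBounded_W 𝔪 φ ψ rep := by
  unfold LSBounded_W
  rw [← Equiv.sum_comp (Equiv.mulRight (ClassGroup.mk0 I₀))
    (fun C => ∑ a : A, ψ (Additive.ofMul a) * (nu 𝔪 φ (a * φ (rep C)) : ℂ)), Finset.mul_sum]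
  refine Finset.sum_congr rfl fun C _ => ?_
  rw [← Equiv.sum_comp (Equiv.mulRight (φ I₀)⁻¹), Finset.mul_sum]
  refine Finset.sum_congr rfl fun a _ => ?_
  simp only [Equiv.coe_mulRight, map_mul]
  have h1 : a * (φ I₀)⁻¹ * (φ (rep (C * ClassGroup.mk0 I₀)) * φ I₀) =
      a * φ (rep (C * ClassGroup.mk0 I₀)) := by
    rw [mul_comm (φ (rep (C * ClassGroup.mk0 I₀))), ← mul_assoc, inv_mul_cancel_right]
  rw [h1, ofMul_mul, AddChar.map_add_eq_mul]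
  ring

theorem LS_bounded_of [Finite A] (h𝔪 : 𝔪 ≠ ⊥)
    (hpZ : ∀ (J : (Ideal (𝓞 k))⁰), IsCoprime (J : Ideal (𝓞 k)) 𝔪 → ∀ a : A,
      ∃ B : ℝ, ∀ s : ℝ, 1 < s → s ≤ 2 →
      |pZ 𝔪 φ (ClassGroup.mk0 J)⁻¹ a s -
        (nu 𝔪 φ (a * φ J) : ℝ) * nrm k s 𝔪 * partialZeta k 1 s| ≤ B)
    (hex : ∀ C : ClassGroup (𝓞 k),
      ∃ J : (Ideal (𝓞 k))⁰, ClassGroup.mk0 J = C ∧ IsCoprime (J : Ideal (𝓞 k)) 𝔪)
    (ψ : AddChar (Additive A) ℂ)
    (hLS : ∀ [Fintype A] (s : ℝ), 1 < s → LS 𝔪 φ ψ s = ∑ C : ClassGroup (𝓞 k), ∑ a : A,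
      ψ (Additive.ofMul a) * ((pZ 𝔪 φ C a s : ℝ) : ℂ))
    (hlow : ∃ c B : ℝ, 0 < c ∧ ∀ s : ℝ, 1 < s → s ≤ 2 → c / (s - 1) - B ≤ partialZeta k 1 s)
    (I₀ : (Ideal (𝓞 k))⁰) (hI₀ : IsCoprime (I₀ : Ideal (𝓞 k)) 𝔪)
    (hψ : ψ (Additive.ofMul (φ I₀)) ≠ 1) :
    ∃ B : ℝ, ∀ s : ℝ, 1 < s → s ≤ 2 → ‖LS 𝔪 φ ψ s‖ ≤ B := by
  let _ : Fintype A := Fintype.ofFinite A
  choose rep hrep hcop using fun C : ClassGroup (𝓞 k) => hex C⁻¹
  set rep' : ClassGroup (𝓞 k) → (Ideal (𝓞 k))⁰ := fun C => rep (C * ClassGroup.mk0 I₀) * I₀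
    with hrep'def
  have hrep' : ∀ C, ClassGroup.mk0 (rep' C) = C⁻¹ := by
    intro C
    simp only [hrep'def, map_mul, hrep, mul_inv]
    rw [mul_assoc, inv_mul_cancel, mul_one]
  have hcop' : ∀ C, IsCoprime (rep' C : Ideal (𝓞 k)) 𝔪 := by
    intro C
    simp only [hrep'def, Submonoid.coe_mul]
    exact (hcop _).mul_left hI₀
  obtain ⟨B1, hB1⟩ := LSBounded_step1 hpZ ψ (fun s hs => hLS s hs) rep hrep hcop
  obtain ⟨B2, hB2⟩ := LSBounded_step1 hpZ ψ (fun s hs => hLS s hs) rep' hrep' hcop'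
  rw [hrep'def, LSBounded_W_shift] at hB2
  set W := LSBounded_W 𝔪 φ ψ rep with hW
  set t := ψ (Additive.ofMul (φ I₀)⁻¹) with ht
  have ht1 : t ≠ 1 := by
    intro h
    apply hψ
    have h2 : ψ (Additive.ofMul (φ I₀)) * t = 1 := by
      rw [ht, ← AddChar.map_add_eq_mul, ← ofMul_mul, mul_inv_cancel, ofMul_one,
        AddChar.map_zero_eq_one]
    rwa [h, mul_one] at h2
  obtain ⟨c, B3, hc, hlow⟩ := hlow
  -- lower bound for the norm factor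
  have hn0 : (1 : ℝ) ≤ (Ideal.absNorm 𝔪 : ℝ) := by
    have : Ideal.absNorm 𝔪 ≠ 0 := by
      rw [Ne, Ideal.absNorm_eq_zero_iff]
      exact h𝔪
    exact_mod_cast Nat.one_le_iff_ne_zero.2 this
  set m0 : ℝ := (Ideal.absNorm 𝔪 : ℝ) ^ (-2 : ℝ) with hm0
  have hm0pos : 0 < m0 := Real.rpow_pos_of_pos (by linarith) _
  have hnrm : ∀ s : ℝ, s ≤ 2 → m0 ≤ nrm k s 𝔪 := by
    intro s hs
    exact Real.rpow_le_rpow_of_exponent_le hn0 (by linarith)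
  have hpz0 : ∀ s : ℝ, 0 ≤ partialZeta k 1 s := by
    intro s
    exact tsum_nonneg fun I => Real.rpow_nonneg (Nat.cast_nonneg _) _
  have hZ : ∀ s : ℝ, 1 < s → s ≤ 2 →
      m0 * (c / (s - 1) - B3) ≤ nrm k s 𝔪 * partialZeta k 1 s := by
    intro s hs1 hs2
    have h1 := hlow s hs1 hs2
    have h2 := hnrm s hs2
    by_cases hL : 0 ≤ c / (s - 1) - B3
    · exact mul_le_mul h2 h1 hL (hm0pos.le.trans h2)
    · rw [not_le] at hL
      have h3 : m0 * (c / (s - 1) - B3) < 0 := mul_neg_of_pos_of_neg hm0pos hL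
      have h4 : 0 ≤ nrm k s 𝔪 * partialZeta k 1 s := mul_nonneg (hm0pos.le.trans h2) (hpz0 s)
      linarith
  have hW0 : ‖W‖ * ‖1 - t‖ = 0 := by
    apply LSBounded_aux (fun s => nrm k s 𝔪 * partialZeta k 1 s) c B3 m0 hc hm0pos hZ _ (B1 + B2)
      (by positivity)
    intro s hs1 hs2
    have h1 := hB1 s hs1 hs2
    have h2 := hB2 s hs1 hs2
    have h3 : ((nrm k s 𝔪 * partialZeta k 1 s : ℝ) : ℂ) * (W * (1 - t)) =
        (LS 𝔪 φ ψ s - ((nrm k s 𝔪 * partialZeta k 1 s : ℝ) : ℂ) * (t * W)) -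
        (LS 𝔪 φ ψ s - ((nrm k s 𝔪 * partialZeta k 1 s : ℝ) : ℂ) * W) := by ring
    have h4 : ‖((nrm k s 𝔪 * partialZeta k 1 s : ℝ) : ℂ) * (W * (1 - t))‖ ≤ B1 + B2 := by
      rw [h3]
      refine (norm_sub_le _ _).trans ?_
      linarith
    rw [norm_mul, norm_mul, Complex.norm_real, Real.norm_eq_abs,
      abs_of_nonneg (mul_nonneg ((hm0pos.le.trans (hnrm s hs2))) (hpz0 s))] at h4
    exact h4
  have hW00 : W = 0 := by
    rcases mul_eq_zero.1 hW0 with h | h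
    · exact norm_eq_zero.1 h
    · exfalso
      apply ht1
      have := norm_eq_zero.1 h
      exact (sub_eq_zero.1 this).symm
  refine ⟨B1, fun s hs1 hs2 => ?_⟩
  have := hB1 s hs1 hs2
  rwa [hW00, mul_zero, sub_zero] at this

end Fermat.Agent.S55.A
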