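import Fermat.Agent.S55.A.Defs
import Fermat.Agent.S14.An.FinalCore
import Fermat.Agent.S14.An.Zeta

/-!
# S55, analytic block (A-11): the second inequality, with (A-9) and (A-10) as hypotheses
-/

set_option autoImplicit false

namespace Fermat.Agent.S55.A

open NumberField IsDedekindDomain Fermat.Agent.S14.An
open scoped nonZeroDivisors

variable {k : Type*} [Field k] [NumberField k] (𝔪 : Ideal (𝓞 k))
  {A : Type*} [CommGroup A] (φ : (Ideal (𝓞 k))⁰ →* A)

theorem mainCore_nrm_le_one {s : ℝ} (hs : 0 < s) (I : Ideal (𝓞 k)) : nrm k s I ≤ 1 := by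
  unfold nrm
  rcases Nat.eq_zero_or_pos (Ideal.absNorm I) with h | h
  · rw [h, Nat.cast_zero, Real.zero_rpow (by linarith)]
    exact zero_le_one
  · exact Real.rpow_le_one_of_one_le_of_nonpos (by exact_mod_cast h) (by linarith)

theorem mainCore_finite_bad {𝔪 : Ideal (𝓞 k)} (h𝔪 : 𝔪 ≠ ⊥) :
    {v : HeightOneSpectrum (𝓞 k) | 𝔪 ≤ v.asIdeal}.Finite := by
  have := Ideal.finite_factors h𝔪
  simpa only [Ideal.dvd_iff_le] using this

theorem mainCore_primeSum_finite_le {S : Set (HeightOneSpectrum (𝓞 k))} (hS : S.Finite) {s : ℝ}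
    (hs : 0 < s) : primeSum S s ≤ S.ncard := by
  classical
  have : Fintype S := hS.fintype
  unfold primeSum
  rw [tsum_fintype, Set.ncard_eq_toFinset_card' S, Set.toFinset_card]
  calc ∑ v : S, nrm k s (v : HeightOneSpectrum (𝓞 k)).asIdeal ≤ ∑ _v : S, (1 : ℝ) :=
        Finset.sum_le_sum fun v _ => mainCore_nrm_le_one hs _
    _ = (Fintype.card S : ℝ) := by simp

theorem mainCore_primeSum_le_of_subset_union {s : ℝ} (hs : 1 < s)
    (V S₁ S₂ : Set (HeightOneSpectrum (𝓞 k))) (h : V ⊆ S₁ ∪ S₂) :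
    primeSum V s ≤ primeSum S₁ s + primeSum S₂ s := by
  have hsum := fin_summable_nrm_prime (summable_nrm (K := k) hs)
  simp only [fin_primeSum_eq_tsum_indicator]
  rw [← (hsum.indicator S₁).tsum_add (hsum.indicator S₂)]
  refine (hsum.indicator _).tsum_le_tsum (fun v => ?_) ((hsum.indicator S₁).add (hsum.indicator S₂))
  have h1 := Set.indicator_nonneg (s := S₁)
    (f := fun v : HeightOneSpectrum (𝓞 k) => nrm k s v.asIdeal)
    (fun v _ => fin_nrm_nonneg s v.asIdeal) v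
  have h2 := Set.indicator_nonneg (s := S₂)
    (f := fun v : HeightOneSpectrum (𝓞 k) => nrm k s v.asIdeal)
    (fun v _ => fin_nrm_nonneg s v.asIdeal) v
  by_cases hv : v ∈ V
  · rw [Set.indicator_of_mem hv]
    rcases h hv with h' | h'
    · rw [Set.indicator_of_mem h'] at h1 ⊢
      linarith
    · rw [Set.indicator_of_mem h'] at h2 ⊢
      linarith
  · rw [Set.indicator_of_notMem hv]
    linarith

/-- pure real analysis. -/
theorem mainCore_analysis {a n : ℕ} (hn : 0 < n) (K : ℝ)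
    (h : ∀ s : ℝ, 1 < s → s ≤ 2 →
      (1 / (n : ℝ)) * Real.log (1 / (s - 1)) ≤ (1 / (a : ℝ)) * Real.log (1 / (s - 1)) + K) :
    a ≤ n := by
  by_contra hcon
  push Not at hcon
  have hn' : (0 : ℝ) < n := by exact_mod_cast hn
  have ha' : (n : ℝ) < a := by exact_mod_cast hcon
  have hδ : 0 < 1 / (n : ℝ) - 1 / (a : ℝ) := by
    rw [sub_pos]
    exact one_div_lt_one_div_of_lt hn' ha'
  set δ := 1 / (n : ℝ) - 1 / (a : ℝ) with hδdef
  set t : ℝ := max (K / δ) 0 + 1 with ht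
  have ht0 : 0 < t := by
    have := le_max_right (K / δ) 0
    linarith
  have hexp : Real.exp (-t) ≤ 1 := by
    rw [Real.exp_le_one_iff]; linarith
  have h1 := h (1 + Real.exp (-t)) (by have := Real.exp_pos (-t); linarith) (by linarith)
  have hlog : Real.log (1 / (1 + Real.exp (-t) - 1)) = t := by
    rw [add_sub_cancel_left, one_div, ← Real.exp_neg, neg_neg, Real.log_exp]
  rw [hlog] at h1
  have h2 : δ * t ≤ K := by
    rw [hδdef, sub_mul]; linarith
  have h3 : K / δ < t := by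
    have := le_max_left (K / δ) 0
    linarith
  rw [div_lt_iff₀ hδ] at h3
  linarith

variable {𝔪 φ} in
theorem card_le_finrank_of (L : Type*) [Field L] [NumberField L] [Algebra k L] [Finite A]
    (h𝔪 : 𝔪 ≠ ⊥)
    (h9 : ∃ C : ℝ, ∀ s : ℝ, 1 < s → s ≤ 2 →
      primeSum (kerPrimes 𝔪 φ) s ≤ (1 / (Nat.card A : ℝ)) * Real.log (1 / (s - 1)) + C)
    (h10 : ∃ C : ℝ, ∀ s : ℝ, 1 < s → s ≤ 2 →
      (1 / (Module.finrank k L : ℝ)) * Real.log (1 / (s - 1)) - C ≤
        primeSum {v : HeightOneSpectrum (𝓞 k) | ∃ w : HeightOneSpectrum (𝓞 L),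
          w.asIdeal.LiesOver v.asIdeal ∧
            Ideal.absNorm w.asIdeal = Ideal.absNorm v.asIdeal} s)
    (h2 : ∀ (v : HeightOneSpectrum (𝓞 k)) (w : HeightOneSpectrum (𝓞 L)),
      w.asIdeal.LiesOver v.asIdeal → Ideal.absNorm w.asIdeal = Ideal.absNorm v.asIdeal →
      ¬ 𝔪 ≤ v.asIdeal → φ (primeNZ v) = 1) :
    Nat.card A ≤ Module.finrank k L := by
  obtain ⟨C9, h9⟩ := h9
  obtain ⟨C10, h10⟩ := h10
  have hfin : FiniteDimensional k L := Module.Finite.of_restrictScalars_finite ℚ k L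
  have hn : 0 < Module.finrank k L := Module.finrank_pos
  have hbad := mainCore_finite_bad h𝔪
  refine mainCore_analysis hn
    (C9 + C10 + ({v : HeightOneSpectrum (𝓞 k) | 𝔪 ≤ v.asIdeal}.ncard : ℝ)) ?_
  intro s hs1 hs2
  have hsub : {v : HeightOneSpectrum (𝓞 k) | ∃ w : HeightOneSpectrum (𝓞 L),
      w.asIdeal.LiesOver v.asIdeal ∧ Ideal.absNorm w.asIdeal = Ideal.absNorm v.asIdeal} ⊆
      kerPrimes 𝔪 φ ∪ {v : HeightOneSpectrum (𝓞 k) | 𝔪 ≤ v.asIdeal} := by
    rintro v ⟨w, hw1, hw2⟩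
    by_cases hv : 𝔪 ≤ v.asIdeal
    · exact Or.inr hv
    · exact Or.inl ⟨hv, h2 v w hw1 hw2 hv⟩
  have e1 := mainCore_primeSum_le_of_subset_union hs1 _ _ _ hsub
  have e2 := mainCore_primeSum_finite_le hbad (s := s) (by linarith)
  have e3 := h9 s hs1 hs2
  have e4 := h10 s hs1 hs2
  linarith

end Fermat.Agent.S55.A
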