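import Fermat.Agent.S55.A.KerPrimes
import Fermat.Agent.S55.A.DegOne
import Fermat.Agent.S55.A.MainCore

/-!
# S55, analytic block (A-11): the second inequality `|A| ≤ [L : k]`
-/

set_option autoImplicit false

namespace Fermat.Agent.S55.A

open NumberField IsDedekindDomain Fermat.Agent.S14.An
open scoped nonZeroDivisors

variable {k : Type*} [Field k] [NumberField k] {𝔪 : Ideal (𝓞 k)}
  {A : Type*} [CommGroup A] {φ : (Ideal (𝓞 k))⁰ →* A}

theorem card_le_finrank (L : Type*) [Field L] [NumberField L] [Algebra k L] [Finite A]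
    (h𝔪 : 𝔪 ≠ ⊥) (h1 : RayTrivial 𝔪 φ)
    (hsurj : ∀ a : A, ∃ I : (Ideal (𝓞 k))⁰, IsCoprime (I : Ideal (𝓞 k)) 𝔪 ∧ φ I = a)
    (h2 : ∀ (v : HeightOneSpectrum (𝓞 k)) (w : HeightOneSpectrum (𝓞 L)),
      w.asIdeal.LiesOver v.asIdeal → Ideal.absNorm w.asIdeal = Ideal.absNorm v.asIdeal →
      ¬ 𝔪 ≤ v.asIdeal → φ (primeNZ v) = 1) :
    Nat.card A ≤ Module.finrank k L :=
  card_le_finrank_of L h𝔪 (primeSum_kerPrimes_le h𝔪 h1 hsurj) (primeSum_degOne_ge L) h2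

end Fermat.Agent.S55.A
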