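import Fermat.Agent.S55.A.Defs
import Fermat.Agent.S14.An.Final

/-!
# S55, analytic block (A-1): weighted orbit decomposition
-/

set_option autoImplicit false

namespace Fermat.Agent.S55.A

open NumberField IsDedekindDomain Fermat.Agent.S14.An
open scoped nonZeroDivisors

variable {k : Type*} [Field k] [NumberField k]

open Classical in
theorem tsum_Fs_mul_eq (c : Coef k) (hc : IsDualCoef c) (J : (Ideal (𝓞 k))⁰) {s : ℝ} (hs : 1 < s)
    (G : (Ideal (𝓞 k))⁰ → ℝ) (hG0 : ∀ I, 0 ≤ G I) (hG1 : ∀ I, G I ≤ 1) :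
    ∑' β : (J : Ideal (𝓞 k)), Fs c s ((β : 𝓞 k) : k) *
        (if h : (β : 𝓞 k) = 0 then 0 else G (spanNZ (β : 𝓞 k) h)) =
      (Units.torsionOrder k : ℝ) * nrm k s (J : Ideal (𝓞 k)) *
        ∑' I : {I : (Ideal (𝓞 k))⁰ // ClassGroup.mk0 I = (ClassGroup.mk0 J)⁻¹},
          G (J * (I : (Ideal (𝓞 k))⁰)) * nrm k s ((I : (Ideal (𝓞 k))⁰) : Ideal (𝓞 k)) := by
  have hwt := hasSum_units_wt c hc
  have hsum : Summable fun I : (Ideal (𝓞 k))⁰ => nrm k s (I : Ideal (𝓞 k)) := summable_nrm hs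
  set f : ↥(J : Ideal (𝓞 k)) → ℝ := fun β => Fs c s ((β : 𝓞 k) : k) *
        (if h : (β : 𝓞 k) = 0 then 0 else G (spanNZ (β : 𝓞 k) h)) with hf
  have hf0 : ∀ β, 0 ≤ f β := by
    intro β
    refine mul_nonneg (orb_Fs_nonneg c s _) ?_
    split_ifs
    · exact le_rfl
    · exact hG0 _
  have hsupp : Function.support f ⊆ Set.range (orbMap J) := by
    intro β hβ
    apply mem_range_orbMap
    intro h0
    apply hβ
    show Fs c s ((β : 𝓞 k) : k) * (if h : (β : 𝓞 k) = 0 then 0 else G (spanNZ (β : 𝓞 k) h)) = 0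
    rw [dif_pos h0, mul_zero]
  have h1 : ∑' β, f β = ∑' x : OrbIdx J × (𝓞 k)ˣ, f (orbMap J x) :=
    ((orbMap_injective J).tsum_eq hsupp).symm
  have hne : ∀ (I : OrbIdx J) (u : (𝓞 k)ˣ), (u : 𝓞 k) * orbGen J I ≠ 0 := fun I u =>
    mul_ne_zero u.ne_zero (orbGen_ne_zero J I)
  have hval : ∀ (I : OrbIdx J) (u : (𝓞 k)ˣ), f (orbMap J (I, u)) =
      (nrm k s (J : Ideal (𝓞 k)) * (G (J * (I : (Ideal (𝓞 k))⁰)) *
        nrm k s ((I : (Ideal (𝓞 k))⁰) : Ideal (𝓞 k)))) *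
        wt c (((u : 𝓞 k) : k) * ((orbGen J I : 𝓞 k) : k)) := by
    intro I u
    show Fs c s ((((u : 𝓞 k) * orbGen J I : 𝓞 k)) : k) *
      (if h : (u : 𝓞 k) * orbGen J I = 0 then 0 else G (spanNZ ((u : 𝓞 k) * orbGen J I) h)) = _
    rw [dif_neg (hne I u), orb_Fs_eq, span_unit_mul_orbGen, orb_nrm_mul]
    have e : spanNZ ((u : 𝓞 k) * orbGen J I) (hne I u) = J * (I : (Ideal (𝓞 k))⁰) :=
      Subtype.ext (span_unit_mul_orbGen J I u)
    rw [e]
    have e2 : ((((u : 𝓞 k) * orbGen J I : 𝓞 k)) : k)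
        = ((u : 𝓞 k) : k) * ((orbGen J I : 𝓞 k) : k) := rfl
    rw [e2]
    ring
  have hg0 : ∀ I : OrbIdx J, ((orbGen J I : 𝓞 k) : k) ≠ 0 := fun I => by
    have := orbGen_ne_zero J I
    exact_mod_cast this
  have hfib : ∀ I : OrbIdx J, HasSum (fun u : (𝓞 k)ˣ => f (orbMap J (I, u)))
      ((nrm k s (J : Ideal (𝓞 k)) * (G (J * (I : (Ideal (𝓞 k))⁰)) *
        nrm k s ((I : (Ideal (𝓞 k))⁰) : Ideal (𝓞 k)))) * (Units.torsionOrder k : ℝ)) := by
    intro I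
    simp only [hval]
    exact (hwt _ (hg0 I)).mul_left _
  have hsumI : Summable fun I : OrbIdx J => nrm k s ((I : (Ideal (𝓞 k))⁰) : Ideal (𝓞 k)) :=
    hsum.subtype _
  have hsumG : Summable fun I : OrbIdx J => G (J * (I : (Ideal (𝓞 k))⁰)) *
      nrm k s ((I : (Ideal (𝓞 k))⁰) : Ideal (𝓞 k)) := by
    refine Summable.of_nonneg_of_le (fun I => mul_nonneg (hG0 _) (ZetaAux.nrm_nonneg _ _)) (fun I => ?_)
      hsumI
    exact mul_le_of_le_one_left (ZetaAux.nrm_nonneg _ _) (hG1 _)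
  have hsummable : Summable fun x : OrbIdx J × (𝓞 k)ˣ => f (orbMap J x) := by
    rw [summable_prod_of_nonneg (fun x => hf0 _)]
    refine ⟨fun I => (hfib I).summable, ?_⟩
    have : (fun I : OrbIdx J => ∑' u : (𝓞 k)ˣ, f (orbMap J (I, u))) = fun I : OrbIdx J =>
        (nrm k s (J : Ideal (𝓞 k)) * (G (J * (I : (Ideal (𝓞 k))⁰)) *
          nrm k s ((I : (Ideal (𝓞 k))⁰) : Ideal (𝓞 k)))) *
          (Units.torsionOrder k : ℝ) := funext fun I => (hfib I).tsum_eq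
    rw [this]
    exact (hsumG.mul_left _).mul_right _
  rw [h1, hsummable.tsum_prod, tsum_congr fun I => (hfib I).tsum_eq]
  rw [tsum_mul_right, tsum_mul_left]
  ring

end Fermat.Agent.S55.A
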